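import Fermat.Agent.Mazur.Wp.Group

/-!
# Uniqueness from the differential equation and the values of `℘`

A function `1 / (c z²) + (analytic)` is determined near the origin by the equation
`F' ² = c (4 F³ - A F - B)`: the difference of two would vanish to an order `n` with `-4 n = 12`.
By Liouville a periodic function with analytic germs is constant, so `℘` takes every value and
the uniformisation is surjective.
-/

set_option autoImplicit false

noncomputable section

namespace FA.ClassNumberOne

open Filter Set FA.Mazur.Wp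
open scoped Topology

/-- A property of all points near a point holds near each of them. -/
theorem eventually_nhds_of_punctured {x : ℂ} {p : ℂ → Prop} (h : ∀ᶠ y in 𝓝[≠] x, p y) :
    ∀ᶠ y in 𝓝[≠] x, ∀ᶠ w in 𝓝 y, p w := by
  rw [eventually_nhdsWithin_iff] at h
  filter_upwards [mem_nhdsWithin_of_mem_nhds h.eventually_nhds, self_mem_nhdsWithin] with y hy hy'
  filter_upwards [hy, isOpen_ne.mem_nhds hy'] with w h1 h2
  exact h1 h2

/-- **Uniqueness** from the differential equation at a double pole. -/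
theorem eq_of_ode {F G f g : ℂ → ℂ} {c A B : ℂ} (hc : c ≠ 0)
    (hf : AnalyticAt ℂ f 0) (hg : AnalyticAt ℂ g 0)
    (hF : ∀ᶠ z in 𝓝[≠] 0, F z = 1 / (c * z ^ 2) + f z)
    (hG : ∀ᶠ z in 𝓝[≠] 0, G z = 1 / (c * z ^ 2) + g z)
    (oF : ∀ᶠ z in 𝓝[≠] 0, deriv F z ^ 2 = c * (4 * F z ^ 3 - A * F z - B))
    (oG : ∀ᶠ z in 𝓝[≠] 0, deriv G z ^ 2 = c * (4 * G z ^ 3 - A * G z - B)) :
    ∀ᶠ z in 𝓝[≠] 0, F z = G z := by
  by_cases h0 : ∀ᶠ z in 𝓝 (0 : ℂ), f z - g z = 0
  · filter_upwards [hF, hG, mem_nhdsWithin_of_mem_nhds h0] with z h1 h2 h3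
    rw [h1, h2, sub_eq_zero.1 h3]
  exfalso
  obtain ⟨n, u, hu, hu0, hev⟩ := (hf.sub hg).exists_eventuallyEq_pow_smul_nonzero_iff.2 h0
  simp only [Pi.sub_apply, sub_zero, smul_eq_mul] at hev
  -- the two sides of the equation for the difference, over `z ^ n`
  let P : ℂ → ℂ := fun z =>
    (n * u z + z * deriv u z) * (-4 + c * z ^ 3 * (deriv f z + deriv g z))
  let Q : ℂ → ℂ := fun z => u z * (4 * ((1 + c * z ^ 2 * f z) ^ 2 +
    (1 + c * z ^ 2 * f z) * (1 + c * z ^ 2 * g z) + (1 + c * z ^ 2 * g z) ^ 2) -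
    A * c ^ 2 * z ^ 4)
  have hPQ : ∀ᶠ z in 𝓝[≠] (0 : ℂ), P z = Q z := by
    filter_upwards [eventually_nhds_of_punctured hF, eventually_nhds_of_punctured hG, oF, oG,
      mem_nhdsWithin_of_mem_nhds hf.eventually_analyticAt,
      mem_nhdsWithin_of_mem_nhds hg.eventually_analyticAt,
      mem_nhdsWithin_of_mem_nhds hu.eventually_analyticAt,
      mem_nhdsWithin_of_mem_nhds hev.eventually_nhds, self_mem_nhdsWithin]
      with z hFz hGz hoF hoG haf hag hau hev hz
    have hz : z ≠ 0 := hz
    have hp : HasDerivAt (fun w => 1 / (c * w ^ 2)) (-2 / (c * z ^ 3)) z := by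
      have h := (((hasDerivAt_id z).fun_pow 2).const_mul c).inv (mul_ne_zero hc (pow_ne_zero 2 hz))
      simp only [id_eq, Nat.cast_ofNat, Nat.add_one_sub_one, pow_one, mul_one] at h
      simp only [one_div]
      exact h.congr_deriv (by field_simp)
    have dF : deriv F z = -2 / (c * z ^ 3) + deriv f z :=
      ((hp.add haf.differentiableAt.hasDerivAt).congr_of_eventuallyEq hFz).deriv
    have dG : deriv G z = -2 / (c * z ^ 3) + deriv g z :=
      ((hp.add hag.differentiableAt.hasDerivAt).congr_of_eventuallyEq hGz).deriv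
    have d1 := (haf.differentiableAt.hasDerivAt.sub hag.differentiableAt.hasDerivAt)
      |>.congr_of_eventuallyEq (f₁ := fun w => w ^ n * u w) (hev.mono fun w hw => hw.symm)
    have dn : deriv f z - deriv g z = (n : ℂ) * z ^ (n - 1) * u z + z ^ n * deriv u z := by
      have := ((hasDerivAt_id z).fun_pow n).mul hau.differentiableAt.hasDerivAt
      simp only [id_eq, mul_one] at this
      exact d1.unique this
    have hn : z ^ n * (n : ℂ) = z * ((n : ℂ) * z ^ (n - 1)) := by
      rcases n with _ | k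
      · simp
      · simp [pow_succ]; ring
    have hd : f z - g z = z ^ n * u z := hev.self_of_nhds
    rw [hFz.self_of_nhds] at hoF
    rw [hGz.self_of_nhds] at hoG
    rw [dF] at hoF
    rw [dG] at hoG
    have key : z * (deriv f z - deriv g z) * (-4 + c * z ^ 3 * (deriv f z + deriv g z)) =
        (f z - g z) * (4 * ((1 + c * z ^ 2 * f z) ^ 2 +
          (1 + c * z ^ 2 * f z) * (1 + c * z ^ 2 * g z) + (1 + c * z ^ 2 * g z) ^ 2) -
          A * c ^ 2 * z ^ 4) := by
      have h := congrArg₂ (· - ·) hoF hoG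
      field_simp at h
      apply mul_left_cancel₀ (mul_ne_zero hc (pow_ne_zero 2 hz))
      linear_combination h
    refine mul_left_cancel₀ (pow_ne_zero n hz) ?_
    simp only [P, Q]
    rw [dn, hd] at key
    linear_combination key + u z * (-4 + c * z ^ 3 * (deriv f z + deriv g z)) * hn
  have cP : ContinuousAt P 0 := by
    have := hu.continuousAt; have := hu.deriv.continuousAt
    have := hf.deriv.continuousAt; have := hg.deriv.continuousAt
    fun_prop
  have cQ : ContinuousAt Q 0 := by
    have := hu.continuousAt; have := hf.continuousAt; have := hg.continuousAt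
    fun_prop
  have h := tendsto_nhds_unique (cP.tendsto.mono_left nhdsWithin_le_nhds)
    ((cQ.tendsto.mono_left nhdsWithin_le_nhds).congr' (hPQ.mono fun _ h => h.symm))
  simp only [P, Q] at h
  have h' : ((n : ℂ) + 3) * u 0 = 0 := by linear_combination -(h / 4)
  rcases mul_eq_zero.1 h' with h | h
  · exact absurd h (by exact_mod_cast (Nat.succ_ne_zero (n + 2)))
  · exact hu0 h

variable (L : PeriodPair)

local notation "wp" => PeriodPair.weierstrassP L
local notation "wq" => PeriodPair.derivWeierstrassP L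

/-- **Liouville** for periodic functions with analytic germs everywhere. -/
theorem exists_const_of_germs {D : ℂ → ℂ}
    (hgerm : ∀ x, ∃ G : ℂ → ℂ, AnalyticAt ℂ G x ∧ ∀ᶠ y in 𝓝[≠] x, D y = G y)
    (hper : ∀ z, ∀ l ∈ L.lattice, D (z + l) = D z) :
    ∃ C, ∀ x, ∀ G : ℂ → ℂ, ContinuousAt G x → (∀ᶠ y in 𝓝[≠] x, D y = G y) → G x = C := by
  let E : ℂ → ℂ := fun x => limUnder (𝓝[≠] x) D
  have hE : ∀ {x : ℂ} {G : ℂ → ℂ}, ContinuousAt G x → (∀ᶠ y in 𝓝[≠] x, D y = G y) →
      E x = G x := fun {x G} hG hev =>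
    ((hG.tendsto.mono_left nhdsWithin_le_nhds).congr' (hev.mono fun _ h => h.symm)).limUnder_eq
  have hdiff : Differentiable ℂ E := fun x => by
    obtain ⟨G, hG, hev⟩ := hgerm x
    refine (hG.congr ?_).differentiableAt
    rw [eventually_nhdsWithin_iff] at hev
    filter_upwards [hev.eventually_nhds, hG.eventually_analyticAt] with y hy hyG
    rcases eq_or_ne y x with rfl | hne
    · exact (hE hG.continuousAt (eventually_nhdsWithin_iff.2 hy)).symm
    · refine (hE hyG.continuousAt (eventually_nhdsWithin_iff.2 ?_)).symm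
      filter_upwards [hy, isOpen_ne.mem_nhds hne] with t ht htx _
      exact ht htx
  have hp : ∀ z, ∀ l ∈ L.lattice, E (z + l) = E z := fun z l hl => by
    obtain ⟨G, hG, hev⟩ := hgerm (z + l)
    rw [hE hG.continuousAt hev, hE (G := fun y => G (y + l))
      (hG.continuousAt.comp_of_eq (continuous_add_const l).continuousAt rfl) ?_]
    have ht : Tendsto (fun y : ℂ => y + l) (𝓝[≠] z) (𝓝[≠] (z + l)) := by
      refine tendsto_nhdsWithin_of_tendsto_nhds_of_eventually_within _ ?_ ?_
      · exact ((continuous_add_const l).tendsto' _ _ rfl).mono_left nhdsWithin_le_nhds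
      · filter_upwards [self_mem_nhdsWithin] with y hy
        exact fun e => hy (add_right_cancel e)
    filter_upwards [ht.eventually hev] with y hy
    rw [← hy, hper y l hl]
  refine ⟨E 0, fun x G hG hev => (hE hG hev).symm.trans ?_⟩
  exact hdiff.apply_eq_apply_of_bounded (IsZLattice.isCompact_range_of_periodic L.lattice _
    hdiff.continuous hp).isBounded x 0

/-- Near a lattice point `℘` is a pole plus a holomorphic function. -/
theorem wp_near {l : ℂ} (hl : l ∈ L.lattice) : ∀ᶠ y in 𝓝[≠] l,
    y ∉ L.lattice ∧ wp y = L.weierstrassPExcept 0 (y - l) + 1 / (y - l) ^ 2 := by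
  filter_upwards [mem_nhdsWithin_of_mem_nhds (L.compl_lattice_sdiff_singleton_mem_nhds l),
    self_mem_nhdsWithin] with y hy hy'
  refine ⟨fun h => hy ⟨h, hy'⟩, ?_⟩
  rw [← wp_eq_except, L.weierstrassP_sub_coe y ⟨l, hl⟩]

/-- **`℘` takes every value.** -/
theorem exists_wp_eq (c : ℂ) : ∃ z ∉ L.lattice, wp z = c := by
  by_contra hno
  push Not at hno
  let D : ℂ → ℂ := fun z => 1 / (wp z - c)
  have hgerm : ∀ x, ∃ G : ℂ → ℂ, AnalyticAt ℂ G x ∧ (∀ᶠ y in 𝓝[≠] x, D y = G y) ∧
      (x ∈ L.lattice → G x = 0) := fun x => by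
    by_cases hx : x ∈ L.lattice
    · refine ⟨fun y => (y - x) ^ 2 /
        (1 + (y - x) ^ 2 * (L.weierstrassPExcept 0 (y - x) - c)), ?_, ?_, fun _ => by simp⟩
      · have h := ((analyticAt_except_zero L).1.comp_of_eq (f := fun y : ℂ => y - x)
          (by fun_prop) (sub_self x))
        exact ((analyticAt_id.sub analyticAt_const).pow 2).div
          (analyticAt_const.add (((analyticAt_id.sub analyticAt_const).pow 2).mul
            (h.sub analyticAt_const))) (by simp)
      · filter_upwards [wp_near L hx, self_mem_nhdsWithin] with y hy hy'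
        have hyx : y - x ≠ 0 := sub_ne_zero.2 hy'
        simp only [D, hy.2]
        field_simp
        ring_nf
    · exact ⟨D, analyticAt_const.div ((analyticAt_wp L hx).sub analyticAt_const)
        (sub_ne_zero.2 (hno x hx)), Eventually.of_forall fun _ => rfl, fun h => absurd h hx⟩
  obtain ⟨C, hC⟩ := exists_const_of_germs L (D := D)
    (fun x => (hgerm x).imp fun G h => ⟨h.1, h.2.1⟩)
    fun z l hl => by simp only [D, (wp_sub_coe L hl).1]
  obtain ⟨G, hG, hev, hG0⟩ := hgerm 0
  have h0 := hC 0 G hG.continuousAt hev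
  rw [hG0 L.lattice.zero_mem] at h0
  obtain ⟨x, hx⟩ := (eventually_notMem_zero L).exists
  have h1 := hC x D ((analyticAt_const.div ((analyticAt_wp L hx).sub analyticAt_const)
    (sub_ne_zero.2 (hno x hx))).continuousAt) (Eventually.of_forall fun _ => rfl)
  exact one_div_ne_zero (sub_ne_zero.2 (hno x hx)) (h1.trans h0.symm)

/-- **The uniformisation is surjective.** -/
theorem unif_surjective [(latCurve L).IsElliptic] : Function.Surjective (unif L) := by
  rintro (_ | ⟨x, y, h⟩)
  · exact ⟨0, unif_of_mem L L.lattice.zero_mem⟩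
  obtain ⟨z, hz, hx⟩ := exists_wp_eq L x
  have h1 := equation_latCurve L hz
  have h2 := h.1
  rw [WeierstrassCurve.Affine.equation_iff] at h1 h2
  rw [hx] at h1
  have hsq : y ^ 2 = (wq z / 2) ^ 2 := by
    simp only [latCurve] at h1 h2
    linear_combination h2 - h1
  rcases sq_eq_sq_iff_eq_or_eq_neg.1 hsq with hy | hy
  · exact ⟨z, by rw [unif_of_notMem L hz]; simp only [hx, hy]⟩
  · refine ⟨-z, ?_⟩
    rw [unif_of_notMem L fun hm => hz (by simpa using neg_mem hm)]
    simp only [L.weierstrassP_neg, L.derivWeierstrassP_neg, hx, hy, neg_div]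

end FA.ClassNumberOne

end
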