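import Fermat.Agent.ClassNumberOne.Multiply

/-!
# Field automorphisms and multiplication by a stabiliser

If `σ` is an automorphism of `ℂ` carrying the invariants of `L` to those of `L'` and `ω L ⊆ L`,
then `σ ω L' ⊆ L'` and the conjugate of multiplication by `ω` is multiplication by `σ ω`: both
abscissas solve the differential equation of `L'` scaled by `σ ω` with the same double pole.
-/

set_option autoImplicit false

noncomputable section

namespace FA.ClassNumberOne

open Filter Set FA.Mazur.Wp WeierstrassCurve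
open scoped Topology

/-- The map on points induced by a field homomorphism of the coefficients. -/
def mapPt {F K : Type*} [Field F] [Field K] [DecidableEq F] [DecidableEq K] (f : F →+* K)
    {W : WeierstrassCurve F} {W' : WeierstrassCurve K} (h : W.map f = W') :
    W.toAffine.Point →+ W'.toAffine.Point where
  toFun P := match P with
    | .zero => .zero
    | .some x y hxy => .some (f x) (f y) (h ▸ (W.toAffine.map_nonsingular f.injective x y).2 hxy)
  map_zero' := rfl
  map_add' := by
    subst h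
    rintro (_ | ⟨x₁, y₁, h₁⟩) (_ | ⟨x₂, y₂, h₂⟩)
    any_goals rfl
    by_cases hxy : x₁ = x₂ ∧ y₁ = W.toAffine.negY x₂ y₂
    · rw [Affine.Point.add_of_Y_eq hxy.1 hxy.2]
      exact (Affine.Point.add_of_Y_eq (congrArg f hxy.1)
        (by rw [hxy.2]; exact (W.toAffine.map_negY (f := f) x₂ y₂).symm)).symm
    · rw [Affine.Point.add_some hxy]
      refine Eq.trans ?_ (Affine.Point.add_some (W := (W.map f).toAffine) fun e =>
        hxy ⟨f.injective e.1, f.injective (e.2.trans (W.toAffine.map_negY (f := f) x₂ y₂))⟩).symm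
      simp only [Affine.Point.some.injEq]
      constructor
      · rw [← Affine.map_addX, ← Affine.map_slope]
      · rw [← Affine.map_addY, ← Affine.map_slope]

section coord

variable {F K : Type*} [Field F] [Field K] [DecidableEq F] [DecidableEq K] (f : F →+* K)
  {W : WeierstrassCurve F} {W' : WeierstrassCurve K} (h : W.map f = W')

theorem xP_mapPt (P : W.toAffine.Point) : xP (mapPt f h P) = f (xP P) := by
  rcases P with _ | ⟨x, y, hxy⟩
  · exact (map_zero f).symm
  · rfl

theorem yP_mapPt (P : W.toAffine.Point) : yP (mapPt f h P) = f (yP P) := by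
  rcases P with _ | ⟨x, y, hxy⟩
  · exact (map_zero f).symm
  · rfl

theorem mapPt_eq_zero_iff {P : W.toAffine.Point} : mapPt f h P = 0 ↔ P = 0 := by
  rcases P with _ | ⟨x, y, hxy⟩
  · exact ⟨fun _ => rfl, fun _ => rfl⟩
  · exact ⟨fun e => absurd e (Affine.Point.some_ne_zero _), fun e => absurd e (by simp)⟩

theorem mapPt_bijective (σ : F ≃+* K) (h : W.map (σ : F →+* K) = W') :
    Function.Bijective (mapPt (σ : F →+* K) h) := by
  refine ⟨fun P Q e => sub_eq_zero.1 ((mapPt_eq_zero_iff _ h).1 (by rw [map_sub, e, sub_self])), ?_⟩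
  subst h
  rintro (_ | ⟨x, y, hxy⟩)
  · exact ⟨.zero, rfl⟩
  · refine ⟨.some (σ.symm x) (σ.symm y)
      ((W.toAffine.map_nonsingular (f := (σ : F →+* K)) σ.injective _ _).1
        (by simpa using hxy)), ?_⟩
    show Affine.Point.some _ _ _ = _
    simp

end coord

/-- `℘` has no limit at the origin. -/
theorem not_tendsto_wp (L : PeriodPair) (a : ℂ) :
    ¬ Tendsto L.weierstrassP (𝓝[≠] (0 : ℂ)) (𝓝 a) := fun h => by
  have h2 : Tendsto (fun z : ℂ => z ^ 2) (𝓝[≠] 0) (𝓝 0) :=
    ((continuous_pow 2).tendsto' _ _ (zero_pow two_ne_zero)).mono_left nhdsWithin_le_nhds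
  have h1 := h2.mul (h.sub
    ((analyticAt_except_zero L).1.continuousAt.tendsto.mono_left nhdsWithin_le_nhds))
  rw [zero_mul] at h1
  refine one_ne_zero (α := ℂ) (tendsto_nhds_unique (tendsto_const_nhds.congr' ?_) h1)
  filter_upwards [self_mem_nhdsWithin] with z hz
  have hz : z ≠ 0 := hz
  rw [wp_eq_except L z]
  field_simp
  ring

variable {L L' : PeriodPair}

theorem map_latCurve (σ : ℂ ≃+* ℂ) (h2 : σ L.g₂ = L'.g₂) (h3 : σ L.g₃ = L'.g₃) :
    (latCurve L).map (σ : ℂ →+* ℂ) = latCurve L' := by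
  ext <;> simp [latCurve, map_ofNat, h2, h3]

variable [(latCurve L).IsElliptic] [(latCurve L').IsElliptic] {ω : ℂ}

/-- **Transport**: the conjugate of multiplication by `ω` is multiplication by `σ ω`, and `σ ω`
stabilises the conjugate lattice. -/
theorem transport (σ : ℂ ≃+* ℂ) (h2 : σ L.g₂ = L'.g₂) (h3 : σ L.g₃ = L'.g₃)
    (hstab : ∀ l ∈ L.lattice, ω * l ∈ L.lattice) {t n : ℤ} (hn : n ≠ 0)
    (hω : ω ^ 2 - t * ω + n = 0) :
    (∀ l ∈ L'.lattice, σ ω * l ∈ L'.lattice) ∧ ∀ (Q : (latCurve L).toAffine.Point) (z : ℂ),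
      mapPt (σ : ℂ →+* ℂ) (map_latCurve σ h2 h3) Q = unif L' z →
        mapPt (σ : ℂ →+* ℂ) (map_latCurve σ h2 h3) (mulPt L hstab Q) = unif L' (σ ω * z) := by
  classical
  have hω0 : ω ≠ 0 := by rintro rfl; simp [hn] at hω
  set e := mapPt (σ : ℂ →+* ℂ) (map_latCurve σ h2 h3) with he
  have hbij : Function.Bijective e := mapPt_bijective σ (map_latCurve σ h2 h3)
  let ψ : (latCurve L').toAffine.Point →+ (latCurve L').toAffine.Point :=
    (e.comp (mulPt L hstab)).comp (AddEquiv.ofBijective e hbij).symm.toAddMonoidHom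
  have hψ : ∀ Q, ψ (e Q) = e (mulPt L hstab Q) := fun Q => by
    show e (mulPt L hstab ((AddEquiv.ofBijective e hbij).symm (e Q))) = _
    rw [show e Q = AddEquiv.ofBijective e hbij Q from rfl, AddEquiv.symm_apply_apply]
  obtain ⟨S, hS⟩ := exists_kernel L hstab hn hω
  let v : ℂ → ℂ := fun u => Function.surjInv (unif_surjective L') (e (unif L u))
  have hv : ∀ u, unif L' (v u) = e (unif L u) := fun u => Function.surjInv_eq (unif_surjective L') _
  have hvmem : ∀ u ∈ S, v u ∉ L'.lattice := fun u hu h => (hS.mem u hu).1 (by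
    rw [← unif_eq_zero_iff L, ← mapPt_eq_zero_iff (σ : ℂ →+* ℂ) (map_latCurve σ h2 h3), ← he,
      ← hv u, unif_of_mem L' h])
  set w := σ ω with hw
  have hw0 : w ≠ 0 := fun h => hω0 (σ.injective (h.trans (map_zero σ).symm))
  -- the bad set
  set T : Set ℂ := (L'.lattice : Set ℂ) ∪ (⋃ u ∈ S, (fun l => l + v u) '' L'.lattice) ∪
    (⋃ u ∈ S, (fun l => l - v u) '' L'.lattice) ∪ (fun l => w⁻¹ * l) '' L'.lattice with hTdef
  have hTc : T.Countable := by
    have hL := countable_lattice L'
    refine (((hL.union ?_).union ?_)).union (hL.image _) <;>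
      exact S.countable_toSet.biUnion fun u _ => hL.image _
  have hTo : IsClosed T := by
    have hL := L'.isClosed_lattice
    refine (((hL.union ?_).union ?_)).union ((Homeomorph.mulLeft₀ w⁻¹ (inv_ne_zero hw0)).isClosedMap
      _ hL) <;> refine S.finite_toSet.isClosed_biUnion fun u _ => ?_
    · exact (Homeomorph.addRight (v u)).isClosedMap _ hL
    · exact (Homeomorph.subRight (v u)).isClosedMap _ hL
  have hgood : ∀ z, z ∉ T → z ∉ L'.lattice ∧ (∀ u ∈ S, z + v u ∉ L'.lattice) ∧
      w * z ∉ L'.lattice ∧ ψ (unif L' z) ≠ 0 := fun z hz => by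
    simp only [hTdef, mem_union, mem_iUnion, mem_image, not_or, SetLike.mem_coe, not_exists,
      not_and] at hz
    obtain ⟨⟨⟨h1, h1'⟩, h2'⟩, h3'⟩ := hz
    refine ⟨h1, fun u hu h => h2' u hu _ h (by ring), fun h => h3' _ h (by field_simp), fun h => ?_⟩
    obtain ⟨Q, hQ⟩ := hbij.2 (unif L' z)
    rw [← hQ, hψ, mapPt_eq_zero_iff (σ : ℂ →+* ℂ) (map_latCurve σ h2 h3)] at h
    obtain ⟨y, rfl⟩ := unif_surjective L Q
    rw [mulPt_unif, unif_eq_zero_iff] at h
    have hy : y ∉ L.lattice := fun hy => h1 ((unif_eq_zero_iff L').1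
      (hQ.symm.trans (by rw [unif_of_mem L hy, map_zero])))
    obtain ⟨u, hu, hyu⟩ := hS.cover y hy h
    refine h1' u hu (z - v u) ?_ (by ring)
    rw [← unif_eq_unif_iff, hv, ← hQ, (unif_eq_unif_iff L).2 hyu]
  -- the abscissa of the conjugate
  let F : ℂ → ℂ := fun z =>
    (w ^ 2)⁻¹ * (L'.weierstrassP z + ∑ u ∈ S, (L'.weierstrassP (z + v u) - L'.weierstrassP (v u)))
  let F' : ℂ → ℂ := fun z =>
    (w ^ 2)⁻¹ * (L'.derivWeierstrassP z + ∑ u ∈ S, L'.derivWeierstrassP (z + v u))
  have hF' : ∀ z, z ∉ T → HasDerivAt F (F' z) z := fun z hz =>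
    (((hasDerivAt_wp L' (hgood z hz).1).add (HasDerivAt.fun_sum fun u hu =>
      ((hasDerivAt_wp L' ((hgood z hz).2.1 u hu)).comp_add_const z (v u)).sub_const _))).const_mul _
  have hco : ∀ z, z ∉ T → xP (ψ (unif L' z)) = F z ∧ yP (ψ (unif L' z)) = F' z / (2 * w) :=
    fun z hz => by
    obtain ⟨Q, hQ⟩ := hbij.2 (unif L' z)
    have h0 : mulPt L hstab Q ≠ 0 := fun h => (hgood z hz).2.2.2 (by rw [← hQ, hψ, h, map_zero])
    obtain ⟨hx, hy⟩ := coord_mulPt hstab hω0 hS h0
    have hxu : ∀ R, σ (xP R) = xP (e R) := fun R => (xP_mapPt (σ : ℂ →+* ℂ) _ R).symm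
    have hyu : ∀ R, σ (yP R) = yP (e R) := fun R => (yP_mapPt (σ : ℂ →+* ℂ) _ R).symm
    have hx' := congrArg σ hx
    have hvx : ∀ u, L'.weierstrassP (v u) = σ (L.weierstrassP u) := fun u => by
      rw [← xP_unif, hv, ← hxu, xP_unif]
    have hy' := congrArg σ hy
    simp only [map_mul, map_pow, map_add, map_sub, map_sum, hxu, hyu, ← hv, hQ, ← unif_add,
      xP_unif, yP_unif, ← hψ, ← hw] at hx' hy'
    refine ⟨?_, ?_⟩
    · simp only [F, hvx]
      rw [eq_inv_mul_iff_mul_eq₀ (pow_ne_zero 2 hw0), hx']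
    · rw [← Finset.sum_div] at hy'
      simp only [F']
      field_simp
      linear_combination 2 * hy'
  -- the two functions satisfy the same equation
  let G : ℂ → ℂ := fun z => L'.weierstrassP (w * z)
  have hG' : ∀ z, w * z ∉ L'.lattice → HasDerivAt G (w * L'.derivWeierstrassP (w * z)) z :=
    fun z hz => by
    have h := (hasDerivAt_wp L' hz).comp z ((hasDerivAt_id z).const_mul w)
    rw [mul_one, mul_comm] at h
    exact h
  have hT0 : ∀ᶠ z in 𝓝[≠] (0 : ℂ), z ∉ T := by
    have h1 : ∀ u ∈ S, ∀ᶠ z in 𝓝 (0 : ℂ), z + v u ∉ L'.lattice ∧ z - v u ∉ L'.lattice :=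
      fun u hu => ((continuous_add_const (v u)).continuousAt.eventually
        ((isOpen_latticeCompl L').eventually_mem (by simpa using hvmem u hu))).and
        ((continuous_sub_right (v u)).continuousAt.eventually
          ((isOpen_latticeCompl L').eventually_mem (by simpa using hvmem u hu)))
    have h4 : ∀ᶠ z in 𝓝[≠] (0 : ℂ), w * z ∉ L'.lattice := by
      have ht : Tendsto (fun z : ℂ => w * z) (𝓝[≠] 0) (𝓝[≠] 0) := by
        refine tendsto_nhdsWithin_of_tendsto_nhds_of_eventually_within _
          (((continuous_const_mul w).tendsto' _ _ (mul_zero w)).mono_left nhdsWithin_le_nhds) ?_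
        filter_upwards [self_mem_nhdsWithin] with z hz
        exact mul_ne_zero hw0 hz
      exact ht.eventually (eventually_notMem_zero L')
    filter_upwards [eventually_notMem_zero L', h4,
      mem_nhdsWithin_of_mem_nhds ((S.eventually_all).2 h1)] with z hz hz4 hz1
    simp only [hTdef, mem_union, mem_iUnion, mem_image, not_or, SetLike.mem_coe, not_exists,
      not_and]
    refine ⟨⟨⟨hz, fun u hu l hl e => (hz1 u hu).2 (by rw [← e]; simpa using hl)⟩,
      fun u hu l hl e => (hz1 u hu).1 (by rw [← e]; simpa using hl)⟩, fun l hl e => hz4 ?_⟩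
    rwa [← e, mul_inv_cancel_left₀ hw0]
  have hode : ∀ᶠ z in 𝓝[≠] (0 : ℂ), F z = G z := by
    refine eq_of_ode (c := w ^ 2) (A := L'.g₂) (B := L'.g₃)
      (f := fun z => (w ^ 2)⁻¹ * (L'.weierstrassPExcept 0 z +
        ∑ u ∈ S, (L'.weierstrassP (z + v u) - L'.weierstrassP (v u))))
      (g := fun z => L'.weierstrassPExcept 0 (w * z)) (pow_ne_zero 2 hw0) ?_ ?_ ?_ ?_ ?_ ?_
    · exact analyticAt_const.mul ((analyticAt_except_zero L').1.add
        (Finset.analyticAt_fun_sum _ fun u hu => ((analyticAt_wp L'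
          (by simpa using hvmem u hu)).comp_of_eq (analyticAt_id.add analyticAt_const) rfl).sub
          analyticAt_const))
    · exact (analyticAt_except_zero L').1.comp_of_eq (analyticAt_const.mul analyticAt_id) (by simp)
    · refine Eventually.of_forall fun z => ?_
      simp only [F]
      rw [wp_eq_except L' z, one_div, one_div, mul_inv]
      ring
    · refine Eventually.of_forall fun z => ?_
      simp only [G]
      rw [wp_eq_except L' (w * z), mul_pow, add_comm]
    · filter_upwards [hT0] with z hz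
      obtain ⟨hx, hy⟩ := hco z hz
      rw [(hF' z hz).deriv]
      have hne := (hgood z hz).2.2.2
      rcases hP : ψ (unif L' z) with _ | ⟨x, y, hxy⟩
      · exact absurd hP hne
      rw [hP] at hx hy
      simp only [xP, yP] at hx hy
      have heq := hxy.1
      rw [Affine.equation_iff] at heq
      simp only [latCurve] at heq
      rw [hx, hy] at heq
      field_simp at heq
      linear_combination heq / 4
    · filter_upwards [hT0] with z hz
      rw [(hG' z (hgood z hz).2.2.1).deriv, mul_pow,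
        L'.derivWeierstrassP_sq _ (hgood z hz).2.2.1]
  have hFG : ∀ z, z ∉ T → F z = G z := by
    have hT' : IsPreconnected Tᶜ := isPreconnected_compl_countable hTc
    obtain ⟨z₀, hz₀, hz₀'⟩ := ((eventually_nhds_of_punctured hode).and hT0).exists
    refine fun z hz => AnalyticOnNhd.eqOn_of_preconnected_of_eventuallyEq (𝕜 := ℂ)
      (f := F) (g := G) (fun x hx => ?_)
      (fun x hx => ?_) hT' hz₀' hz₀ hz
    · exact analyticAt_const.mul ((analyticAt_wp L' (hgood x hx).1).add
        (Finset.analyticAt_fun_sum _ fun u hu => ((analyticAt_wp L'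
          ((hgood x hx).2.1 u hu)).comp_of_eq (analyticAt_id.add analyticAt_const) rfl).sub
          analyticAt_const))
    · exact (analyticAt_wp L' (hgood x hx).2.2.1).comp_of_eq
        (analyticAt_const.mul analyticAt_id) rfl
  -- the stability
  have hstab' : ∀ l ∈ L'.lattice, w * l ∈ L'.lattice := fun l hl => by
    by_contra hwl
    have hnear : ∀ᶠ z in 𝓝[≠] (0 : ℂ), z + l ∉ T := by
      filter_upwards [hT0, mem_nhdsWithin_of_mem_nhds
        (((continuous_const.mul (continuous_add_const l)).continuousAt (x := (0 : ℂ))).eventually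
          ((isOpen_latticeCompl L').eventually_mem
            (show w * ((0 : ℂ) + l) ∈ (L'.lattice : Set ℂ)ᶜ by simpa using hwl)))] with z hz hz'
      obtain ⟨h1, h2', -, -⟩ := hgood z hz
      simp only [hTdef, mem_union, mem_iUnion, mem_image, not_or, SetLike.mem_coe, not_exists,
        not_and] at hz ⊢
      refine ⟨⟨⟨fun h => h1 (by simpa using sub_mem h hl),
        fun u hu m hm e => hz.1.1.2 u hu (m - l) (sub_mem hm hl) (by linear_combination e)⟩,
        fun u hu m hm e => hz.1.2 u hu (m - l) (sub_mem hm hl) (by linear_combination e)⟩,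
        fun m hm e => hz' ?_⟩
      show w * (z + l) ∈ L'.lattice
      rwa [← e, mul_inv_cancel_left₀ hw0]
    have hc : ContinuousAt (fun z => L'.weierstrassP (w * (z + l))) 0 :=
      ContinuousAt.comp_of_eq (analyticAt_wp L' hwl).continuousAt
        (continuous_const.mul (continuous_add_const l)).continuousAt (by simp)
    have hlim : Tendsto G (𝓝[≠] 0) (𝓝 (L'.weierstrassP (w * (0 + l)))) := by
      refine (hc.tendsto.mono_left nhdsWithin_le_nhds).congr' ?_
      filter_upwards [hT0, hnear] with z hz hz'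
      have hFF : F (z + l) = F z := by
        simp only [F, (wp_sub_coe L' hl).1, add_right_comm _ l]
      rw [← hFG z hz, ← hFF, hFG _ hz']
    have ht : Tendsto (fun z : ℂ => w⁻¹ * z) (𝓝[≠] 0) (𝓝[≠] 0) := by
      refine tendsto_nhdsWithin_of_tendsto_nhds_of_eventually_within _
        (((continuous_const_mul _).tendsto' _ _ (mul_zero _)).mono_left nhdsWithin_le_nhds) ?_
      filter_upwards [self_mem_nhdsWithin] with z hz
      exact mul_ne_zero (inv_ne_zero hw0) hz
    refine not_tendsto_wp L' _ ((hlim.comp ht).congr fun z => ?_)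
    simp only [Function.comp, G]
    rw [mul_inv_cancel_left₀ hw0]
  -- the points
  have hgen : ∀ z, z ∉ T → ψ (unif L' z) = unif L' (w * z) := fun z hz => by
    obtain ⟨h1, -, h4, h5⟩ := hgood z hz
    obtain ⟨hx, hy⟩ := hco z hz
    refine eq_of_coord h5 (fun h => h4 ((unif_eq_zero_iff L').1 h)) ?_ ?_
    · rw [hx, xP_unif, hFG z hz]
    · have hev : F =ᶠ[𝓝 z] G :=
        Filter.eventuallyEq_of_mem (hTo.isOpen_compl.mem_nhds hz) fun y hy => hFG y hy
      rw [hy, yP_unif, ((hF' z hz).congr_of_eventuallyEq hev.symm).unique (hG' z h4)]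
      field_simp
  refine ⟨hstab', fun Q z hQ => ?_⟩
  rw [← hψ, hQ]
  obtain ⟨y, hy, hy'⟩ : ∃ y, y ∉ T ∧ z - y ∉ T := by
    have hc : (T ∪ (fun x => z - x) '' T).Countable := hTc.union (hTc.image _)
    obtain ⟨y, hy⟩ := (hc.dense_compl ℂ).nonempty
    exact ⟨y, fun h => hy (Or.inl h), fun h => hy (Or.inr ⟨_, h, by ring⟩)⟩
  rw [show z = y + (z - y) by ring, unif_add, map_add, hgen y hy, hgen _ hy', ← unif_add, mul_add]

end FA.ClassNumberOne

end
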