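import Fermat.Agent.ClassNumberOne.Order
import Fermat.Agent.ClassNumberOne.Transport
import Fermat.Agent.CM.ClassOne.Galois
import Fermat.Agent.Period.AutC
import Fermat.Agent.Carayol.Front.Normal
import Fermat.Agent.SerreLarge.GoodModel
import Fermat.Agent.Root.LFunctionAll

/-!
# The curve with complex multiplication by the integers of `ℚ(√-p)`

If `ℚ(√-p)`, `p ≡ 3 (mod 4)`, has class number one, the invariant of `ℤ ω + ℤ` is fixed by every
automorphism of `ℂ`, so it is rational; on a rational model multiplication by `√-p` preserves the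
algebraic points and anticommutes with the `σ` moving `√-p`, so `a_l = 0` at the inert primes.
-/

set_option autoImplicit false
set_option linter.style.haveILetI false

noncomputable section

namespace FA.ClassNumberOne

open NumberField Module FA.Mazur.Wp WeierstrassCurve Polynomial
open scoped UpperHalfPlane WeierstrassCurve.Affine

local notation "Qb" => AlgebraicClosure ℚ
local notation "GQ" => AlgebraicClosure ℚ ≃ₐ[ℚ] AlgebraicClosure ℚ

/-- A number with a finite orbit under the automorphisms of `ℂ` comes from `ℚ̄`. -/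
theorem mem_range_of_finite_orbit (j : Qb →+* ℂ) {z : ℂ} {S : Set ℂ} (hS : S.Finite)
    (h : ∀ σ : ℂ ≃+* ℂ, σ z ∈ S) : ∃ x, j x = z := by
  letI : Algebra Qb ℂ := j.toAlgebra
  by_cases hz : IsIntegral Qb z
  · exact minpoly.mem_range_of_degree_eq_one Qb z
      (IsAlgClosed.degree_eq_one_of_irreducible Qb (minpoly.irreducible hz))
  exfalso
  have hzK : Transcendental Qb z := fun halg => hz halg.isIntegral
  have hs : AlgebraicIndepOn Qb id ({z} : Set ℂ) := by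
    have : Unique ({z} : Set ℂ) := Set.uniqueSingleton z
    refine algebraicIndependent_unique_type_iff.mpr ?_
    rw [show (default : ({z} : Set ℂ)) = ⟨z, rfl⟩ from Subsingleton.elim _ _]
    exact hzK
  obtain ⟨t, hzt, ht⟩ := exists_isTranscendenceBasis_superset hs
  obtain ⟨σ, hσ⟩ := FA.Period.exists_ringEquiv_extending _ ht
    (FA.Period.shiftVars t Qb).toRingEquiv
  have h1 : σ z = z + 1 := by
    simpa [FA.Period.shiftVars] using hσ (MvPolynomial.X ⟨z, hzt rfl⟩)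
  have hk : ∀ k : ℕ, ∃ τ : ℂ ≃+* ℂ, τ z = z + k := fun k => by
    induction k with
    | zero => exact ⟨RingEquiv.refl ℂ, by simp⟩
    | succ k ih =>
      obtain ⟨τ, hτ⟩ := ih
      exact ⟨τ.trans σ, by
        rw [RingEquiv.trans_apply, hτ, map_add, h1, map_natCast]; push_cast; ring⟩
  refine Set.infinite_of_injective_forall_mem (f := fun k : ℕ => z + k) (fun a b e => by
    simpa using e) (fun k => ?_) hS
  obtain ⟨τ, hτ⟩ := hk k
  exact hτ ▸ h τ

/-- Algebraic numbers have finite orbits. -/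
theorem finite_orbit (j : Qb →+* ℂ) (x : Qb) :
    ∃ S : Set ℂ, S.Finite ∧ ∀ σ : ℂ ≃+* ℂ, σ (j x) ∈ S := by
  have hx : IsIntegral ℚ x := Algebra.IsIntegral.isIntegral x
  refine ⟨((minpoly ℚ x).map (algebraMap ℚ ℂ)).rootSet ℂ, rootSet_finite _ _, fun σ => ?_⟩
  rw [mem_rootSet_of_ne (map_ne_zero (minpoly.ne_zero hx)), coe_aeval_eq_eval, eval_map]
  have h1 : ((minpoly ℚ x).eval₂ (algebraMap ℚ Qb) x) = 0 := minpoly.aeval ℚ x
  have h2 := congrArg ((σ : ℂ →+* ℂ).comp j) h1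
  rw [hom_eval₂, map_zero, Subsingleton.elim (((σ : ℂ →+* ℂ).comp j).comp (algebraMap ℚ Qb))
    (algebraMap ℚ ℂ)] at h2
  exact h2

variable (p : ℕ) [NeZero p]

/-- Stability under `σ ω` is stability under `ω`. -/
theorem stable_of_conj (hp4 : p % 4 = 3) (σ : ℂ ≃+* ℂ) {L : PeriodPair}
    (h : ∀ l ∈ L.lattice, σ (omegaPt p : ℂ) * l ∈ L.lattice) :
    ∀ l ∈ L.lattice, (omegaPt p : ℂ) * l ∈ L.lattice := fun l hl => by
  have h1 := omega_sq p hp4
  have h2 := congrArg σ h1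
  simp only [map_add, map_sub, map_mul, map_pow, map_intCast, map_zero] at h2
  push_cast at h1 h2
  have h3 : (σ (omegaPt p : ℂ) - omegaPt p) * (σ (omegaPt p : ℂ) + omegaPt p - 1) = 0 := by
    linear_combination h2 - h1
  rcases mul_eq_zero.1 h3 with h4 | h4
  · rw [← sub_eq_zero.1 h4]; exact h l hl
  · rw [show (omegaPt p : ℂ) * l = l - σ (omegaPt p : ℂ) * l by linear_combination l * h4]
    exact sub_mem hl (h l hl)

variable {p} {K : Type*} [Field K] [NumberField K] {s : K}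

/-- **The invariant is rational.** -/
theorem exists_rat_jLat (hp : p.Prime) (hp4 : p % 4 = 3) (hK : finrank ℚ K = 2)
    (hs : s ^ 2 = ((-(p : ℤ) : ℤ) : K)) (h1 : classNumber K = 1) :
    ∃ r : ℚ, jLat (latPair (omegaPt p)) = r := by
  set L := latPair (omegaPt p) with hL
  have hΔ := discr_latPair_ne_zero (omegaPt p)
  refine FA.Period.exists_rat_of_forall_ringEquiv_fixed _ fun σ => ?_
  have hΔσ : (σ L.g₂) ^ 3 - 27 * (σ L.g₃) ^ 2 ≠ 0 := fun e => hΔ (σ.injective (by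
    rw [map_zero, map_sub, map_mul, map_pow, map_pow, map_ofNat, e]))
  obtain ⟨L', h2, h3⟩ := exists_lattice hΔσ
  haveI : (latCurve L).IsElliptic := isElliptic_latCurve hΔ
  haveI : (latCurve L').IsElliptic := isElliptic_latCurve (by rwa [h2, h3])
  have hstab : ∀ l ∈ L.lattice, (omegaPt p : ℂ) * l ∈ L.lattice := fun l hl => by
    obtain ⟨m, n, rfl⟩ := mem_latPair.1 hl
    refine mem_latPair.2 ⟨m + n, -m * (((p + 1) / 4 : ℕ) : ℤ), ?_⟩
    have h0 := omega_sq p hp4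
    push_cast at h0 ⊢
    linear_combination -(m : ℂ) * h0
  have hq : ((((p + 1) / 4 : ℕ) : ℤ)) ≠ 0 := by omega
  obtain ⟨hst, -⟩ := transport σ h2.symm h3.symm hstab hq (omega_sq p hp4)
  obtain ⟨u, hu, hlat⟩ := exists_homothety hp hp4 hK hs h1 L' (stable_of_conj p hp4 σ hst)
  obtain ⟨e2, e3⟩ := g_congr hlat
  have hσj : σ (jLat L) = jLat L' := by
    simp only [jLat, h2, h3, map_div₀, map_sub, map_mul, map_pow, map_ofNat]
  rw [hσj, jLat, jLat, e2, e3, g₂_scaled, g₃_scaled, ← hL]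
  field_simp

theorem isSquare_zmod_two : ∀ x : ZMod 2, IsSquare x := by decide

/-- A rational pair of invariants with nonzero discriminant and given `a³ / (a³ - 27 b²)`. -/
theorem exists_rat_pair (r : ℚ) : ∃ a b : ℚ, a ^ 3 - 27 * b ^ 2 ≠ 0 ∧
    a ^ 3 / (a ^ 3 - 27 * b ^ 2) = r := by
  by_cases h0 : r = 0
  · exact ⟨0, 1, by norm_num, by norm_num [h0]⟩
  by_cases h1 : r = 1
  · exact ⟨1, 0, by norm_num, by norm_num [h1]⟩
  have hr : r - 1 ≠ 0 := sub_ne_zero.2 h1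
  set x := 27 * r / (r - 1) with hx
  have hx0 : x ≠ 0 := div_ne_zero (mul_ne_zero (by norm_num) h0) hr
  have hx27 : x - 27 = 27 / (r - 1) := by rw [hx]; field_simp; ring
  have hne : x ^ 3 - 27 * x ^ 2 ≠ 0 := by
    rw [show x ^ 3 - 27 * x ^ 2 = x ^ 2 * (x - 27) by ring, hx27]
    exact mul_ne_zero (pow_ne_zero 2 hx0) (div_ne_zero (by norm_num) hr)
  refine ⟨x, x, hne, ?_⟩
  rw [show x ^ 3 - 27 * x ^ 2 = x ^ 2 * (x - 27) by ring, show x ^ 3 = x ^ 2 * x by ring,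
    mul_div_mul_left _ _ (pow_ne_zero 2 hx0), hx27, hx]
  field_simp

/-- **A curve over `ℚ` with `a_l = 0` at the inert primes.** -/
theorem exists_exceptional_curve (hp : p.Prime) (hp4 : p % 4 = 3) (hK : finrank ℚ K = 2)
    (hs : s ^ 2 = ((-(p : ℤ) : ℤ) : K)) (h1 : classNumber K = 1) :
    ∃ (E : WeierstrassCurve ℚ) (_ : E.IsElliptic), ∀ l : ℕ, ∀ [Fact l.Prime],
      (∃ C : VariableChange ℚ_[l],
        HasGoodReduction ℤ_[l] (C • E.map (algebraMap ℚ ℚ_[l]))) →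
      ¬ IsSquare ((-(p : ℤ) : ℤ) : ZMod l) → E.LFunction l = 0 := by
  classical
  haveI := Fact.mk hp
  obtain ⟨r, hr⟩ := exists_rat_jLat hp hp4 hK hs h1
  obtain ⟨a, b, hab, habr⟩ := exists_rat_pair r
  have hab' : (a : ℂ) ^ 3 - 27 * (b : ℂ) ^ 2 ≠ 0 := by exact_mod_cast hab
  obtain ⟨u, hu, ha, hb⟩ := exists_scale hab' (discr_latPair_ne_zero (omegaPt p))
    (by rw [← jLat, hr, ← habr]; push_cast; rfl)
  set L := scaled (latPair (omegaPt p)) (inv_ne_zero hu) with hL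
  have hg2 : L.g₂ = (a : ℂ) := by rw [hL, g₂_scaled, inv_inv, ha]
  have hg3 : L.g₃ = (b : ℂ) := by rw [hL, g₃_scaled, inv_inv, hb]
  haveI : (latCurve L).IsElliptic := isElliptic_latCurve (by rwa [hg2, hg3])
  -- multiplication by the root
  set w := rootNeg p with hw
  have hq := omega_sq p hp4
  have hstab : ∀ l ∈ L.lattice, w * l ∈ L.lattice := fun l hl => by
    rw [hL, mem_scaled, mem_latPair] at hl ⊢
    obtain ⟨m, n, hmn⟩ := hl
    refine ⟨m + 2 * n, -(2 * m * (((p + 1) / 4 : ℕ) : ℤ)) - n, ?_⟩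
    rw [mul_assoc w, ← hmn, hw, rootNeg]
    push_cast at hq ⊢
    linear_combination -2 * (m : ℂ) * hq
  have hpol : w ^ 2 - ((0 : ℤ) : ℂ) * w + ((p : ℤ) : ℂ) = 0 := by
    rw [hw, rootNeg_sq]; push_cast; ring
  set μ := mulPt L hstab with hμ
  have hμμ : ∀ Q, μ (μ Q) = (-(p : ℤ)) • Q := fun Q => by
    obtain ⟨z, rfl⟩ := unif_surjective L Q
    rw [hμ, mulPt_unif, mulPt_unif, ← unifHom_apply, ← unifHom_apply, ← map_zsmul, ← mul_assoc,
      ← pow_two, hw, rootNeg_sq, zsmul_eq_mul]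
    push_cast
    rfl
  have hσg : ∀ σ : ℂ ≃+* ℂ, σ L.g₂ = L.g₂ ∧ σ L.g₃ = L.g₃ := fun σ => by
    rw [hg2, hg3, map_ratCast, map_ratCast]; exact ⟨rfl, rfl⟩
  have hconj : ∀ (σ : ℂ ≃+* ℂ) (Q : (latCurve L).toAffine.Point),
      mapPt (σ : ℂ →+* ℂ) (map_latCurve σ (hσg σ).1 (hσg σ).2) (μ Q) =
        if σ w = w then μ (mapPt (σ : ℂ →+* ℂ) (map_latCurve σ (hσg σ).1 (hσg σ).2) Q)
        else -μ (mapPt (σ : ℂ →+* ℂ) (map_latCurve σ (hσg σ).1 (hσg σ).2) Q) := fun σ Q => by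
    obtain ⟨z, hz⟩ := unif_surjective L
      (mapPt (σ : ℂ →+* ℂ) (map_latCurve σ (hσg σ).1 (hσg σ).2) Q)
    rw [(transport σ (hσg σ).1 (hσg σ).2 hstab (Int.natCast_ne_zero.2 hp.ne_zero) hpol).2 Q z
      hz.symm, ← hz, hμ, mulPt_unif]
    split_ifs with h
    · rw [h]
    · have h2 : σ w ^ 2 = w ^ 2 := by rw [← map_pow, hw, rootNeg_sq, map_neg, map_natCast]
      rw [(sq_eq_sq_iff_eq_or_eq_neg.1 h2).resolve_left h, neg_mul, unif_neg]
  -- the curve over the rationals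
  set E : WeierstrassCurve ℚ := ⟨0, 0, 0, -a / 4, -b / 4⟩ with hE
  haveI : E.IsElliptic := ⟨by
    rw [isUnit_iff_ne_zero]
    simp only [hE, WeierstrassCurve.Δ, b₂, b₄, b₆, b₈]
    intro h
    exact hab (by linear_combination h)⟩
  let j : Qb →+* ℂ := (IsAlgClosed.lift : Qb →ₐ[ℚ] ℂ).toRingHom
  letI : Algebra Qb ℂ := j.toAlgebra
  have hmap : (E⁄Qb).map j = latCurve L := by
    ext <;> simp [hE, latCurve, hg2, hg3, map_ofNat]
  let ι : (E⁄Qb).Point →+ (latCurve L).toAffine.Point := mapPt j hmap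
  have hι : Function.Injective ι := fun P Q e =>
    sub_eq_zero.1 ((mapPt_eq_zero_iff j hmap).1 (by rw [map_sub, e, sub_self]))
  have horb : ∀ P, ∃ S : Set (latCurve L).toAffine.Point, S.Finite ∧ ∀ σ : ℂ ≃+* ℂ,
      mapPt (σ : ℂ →+* ℂ) (map_latCurve σ (hσg σ).1 (hσg σ).2) (ι P) ∈ S := fun P => by
    obtain ⟨X, hX, hXm⟩ := finite_orbit j (xP P)
    obtain ⟨Y, hY, hYm⟩ := finite_orbit j (yP P)
    refine ⟨{0} ∪ ({Q | Q ≠ 0 ∧ xP Q ∈ X ∧ yP Q ∈ Y}), (Set.finite_singleton _).union ?_,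
      fun σ => ?_⟩
    · refine Set.Finite.of_finite_image ((hX.prod hY).subset ?_)
        (f := fun Q => (xP Q, yP Q)) fun P hP Q hQ e => ?_
      · rintro _ ⟨Q, hQ, rfl⟩; exact hQ.2
      · exact eq_of_coord hP.1 hQ.1 (congrArg Prod.fst e) (congrArg Prod.snd e)
    · rcases eq_or_ne (mapPt (σ : ℂ →+* ℂ) (map_latCurve σ (hσg σ).1 (hσg σ).2) (ι P)) 0
        with h | h
      · exact Or.inl h
      · exact Or.inr ⟨h, by rw [xP_mapPt, xP_mapPt]; exact hXm σ,
          by rw [yP_mapPt, yP_mapPt]; exact hYm σ⟩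
  have hex : ∀ P, ∃ P' : (E⁄Qb).Point, ι P' = μ (ι P) := fun P => by
    obtain ⟨S, hS, hSm⟩ := horb P
    rcases hQ : μ (ι P) with _ | ⟨x, y, hxy⟩
    · exact ⟨0, map_zero ι⟩
    have hfin : ∀ (c : (latCurve L).toAffine.Point → ℂ),
        (∀ σ : ℂ ≃+* ℂ, ∀ R, c (mapPt (σ : ℂ →+* ℂ) (map_latCurve σ (hσg σ).1 (hσg σ).2) R) =
          σ (c R)) → ∃ x', j x' = c (μ (ι P)) := fun c hc => by
      refine mem_range_of_finite_orbit j ((hS.image fun R => c (μ R)).union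
        (hS.image fun R => c (-μ R))) fun σ => ?_
      rw [← hc, hconj]
      split_ifs
      · exact Or.inl ⟨_, hSm σ, rfl⟩
      · exact Or.inr ⟨_, hSm σ, rfl⟩
    obtain ⟨x', hx⟩ := hfin xP fun σ R => xP_mapPt _ _ R
    obtain ⟨y', hy⟩ := hfin yP fun σ R => yP_mapPt _ _ R
    rw [hQ] at hx hy
    simp only [xP, yP] at hx hy
    subst hx hy
    exact ⟨.some x' y' (((E⁄Qb).toAffine.map_nonsingular j.injective x' y').1 (hmap ▸ hxy)), rfl⟩
  choose M hM using hex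
  let Mh : (E⁄Qb).Point →+ (E⁄Qb).Point := AddMonoidHom.mk' M fun P Q => hι (by
    rw [map_add, hM, hM, hM, map_add, map_add])
  have hMM : ∀ P, Mh (Mh P) = (-(p : ℤ)) • P := fun P => hι (by
    show ι (M (M P)) = _
    rw [hM, hM, hμμ, map_zsmul])
  -- the traces
  obtain ⟨W, hW, hgoodW⟩ := FA.SerreLarge.exists_goodModel E
  refine ⟨E, inferInstance, fun l hl hgood hns => ?_⟩
  have hlp : l.Prime := Fact.out
  have hl2 : l ≠ 2 := by
    rintro rfl
    exact hns (isSquare_zmod_two _)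
  have hlq : l ≠ p := by
    rintro rfl
    exact hns ⟨0, by push_cast [ZMod.natCast_self]; simp⟩
  have hlΔ := hgoodW l hgood
  rw [FA.Root.LFunction_apply_prime E W hW hlp hlΔ]
  obtain ⟨A, hA⟩ := FA.Deform.exists_liesOverPrime hlp
  obtain ⟨σ, hσ⟩ := FA.Deform.exists_isFrobeniusAt hlp hA
  obtain ⟨t, ht⟩ := IsAlgClosed.exists_pow_nat_eq (-(p : Qb)) two_pos
  have hσt : σ t = -t := (FA.CM.ClassOne.apply_sqrt ht σ).resolve_left fun e => hns (by
    have := (FA.CM.ClassOne.frobenius_fix_iff hp hlp hl2 hlq hA hσ ht).1 e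
    push_cast
    exact this)
  obtain ⟨σ', hσ'⟩ := FA.Carayol.exists_extend_complex σ
  have hσw : σ' w ≠ w := fun e => by
    have h2 : j t ^ 2 = w ^ 2 := by rw [← map_pow, ht, hw, rootNeg_sq, map_neg, map_natCast]
    have h3 : σ' (j t) = j t := by
      rcases sq_eq_sq_iff_eq_or_eq_neg.1 h2 with h | h <;> rw [h]
      · exact e
      · rw [map_neg, e]
    rw [show σ' (j t) = j (σ t) from hσ' t, hσt] at h3
    have h4 : -t = t := j.injective h3
    have h5 : t = 0 := by linear_combination (-1 / 2 : Qb) * h4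
    rw [h5, zero_pow two_ne_zero, zero_eq_neg, Nat.cast_eq_zero] at ht
    exact hp.ne_zero ht
  refine FA.CM.ClassOne.apOfModel_eq_zero hW hlp hlΔ hA hσ hMM fun P => hι ?_
  have hsm : ∀ R : (E⁄Qb).Point,
      ι (σ • R) = mapPt (σ' : ℂ →+* ℂ) (map_latCurve σ' (hσg σ').1 (hσg σ').2) (ι R) := by
    rintro (_ | ⟨x, y, hxy⟩)
    · rfl
    · show Affine.Point.some _ _ _ = Affine.Point.some _ _ _
      simp only [Affine.Point.some.injEq]
      exact ⟨(hσ' x).symm, (hσ' y).symm⟩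
  show ι (σ • M P) = ι (-M (σ • P))
  rw [hsm, map_neg, hM, hM, hsm, hconj, if_neg hσw]

end FA.ClassNumberOne

end
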