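import Fermat.Agent.ClassNumberOne.Order

/-!
# Principal ramified primes

If the ring of integers of `ℚ(√d)`, `d < 0`, is principal, a ramified prime is a norm, so
`4 q = a² + |d| b²` with `b ≠ 0`; hence `d` is `-1`, `-2` or `-p` with `p ≡ 3 (mod 4)`.
-/

set_option autoImplicit false

noncomputable section

namespace FA.ClassNumberOne

open NumberField Module Ideal FA.ExceptionalIsCM

variable {K : Type*} [Field K] [NumberField K] {d : ℤ} {s : K}

/-- **A ramified prime is a norm**: `4 q = a² - d b²` with `b ≠ 0`. -/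
theorem exists_repr (hK : finrank ℚ K = 2) (hd : Squarefree d) (hd0 : d < 0)
    (hs : s ^ 2 = (d : K)) (h1 : classNumber K = 1) {q : ℕ} (hq : q.Prime) {x y : 𝓞 K} {N : ℤ}
    (hx : (q : 𝓞 K) ∣ x * x) (hxy : x * y = (N : 𝓞 K)) (hy : (q : 𝓞 K) ∣ x + y)
    (hqN : (q : ℤ) ∣ N ∧ ¬ (q : ℤ) ^ 2 ∣ N) :
    ∃ a b : ℤ, b ≠ 0 ∧ a ^ 2 - d * b ^ 2 = 4 * q := by
  have := classNumber_eq_one_iff.mp h1
  -- the prime is a square up to a unit
  obtain ⟨α, hα⟩ := (IsPrincipalIdealRing.principal (span {(q : 𝓞 K), x})).principal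
  have hmem : ∀ z ∈ span {(q : 𝓞 K), x}, α ∣ z := fun z hz => by
    rw [hα] at hz
    exact mem_span_singleton.mp hz
  have hαq : α ∣ (q : 𝓞 K) := hmem _ (subset_span (Set.mem_insert _ _))
  have hαx : α ∣ x := hmem _ (subset_span (Set.mem_insert_of_mem _ rfl))
  have hαy : α ∣ y := by simpa using dvd_sub (hαq.trans hy) hαx
  obtain ⟨u, v, huv⟩ : ∃ u v : ℤ, u * (q : ℤ) ^ 2 + v * N = q := by
    obtain ⟨⟨k, rfl⟩, hk⟩ := hqN
    obtain ⟨u, v, h⟩ := ((Nat.prime_iff_prime_int.mp hq).coprime_iff_not_dvd).mpr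
      (fun e => hk (pow_two (q : ℤ) ▸ mul_dvd_mul_left (q : ℤ) e))
    exact ⟨u, v, by linear_combination (q : ℤ) * h⟩
  have hαα : α * α ∣ (q : 𝓞 K) := by
    have hsum : α * α ∣ (u : 𝓞 K) * ((q : 𝓞 K) * q) + (v : 𝓞 K) * (x * y) :=
      dvd_add ((mul_dvd_mul hαq hαq).mul_left _) ((mul_dvd_mul hαx hαy).mul_left _)
    have h' := congrArg (Int.cast : ℤ → 𝓞 K) huv
    push_cast at h'
    rw [hxy] at hsum
    rwa [← h', pow_two]
  obtain ⟨A, B, hAB⟩ := mem_span_pair.mp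
    (show α ∈ span {(q : 𝓞 K), x} from hα.symm ▸ Submodule.mem_span_singleton_self α)
  have hqα : (q : 𝓞 K) ∣ α * α := by
    obtain ⟨c, hc⟩ := hx
    exact ⟨A * A * q + 2 * A * B * x + B * B * c, by rw [← hAB]; linear_combination B * B * hc⟩
  obtain ⟨r, hr⟩ := hαα
  obtain ⟨t, ht⟩ := hqα
  have hq0 : (q : 𝓞 K) ≠ 0 := Nat.cast_ne_zero.mpr hq.ne_zero
  have hu : IsUnit r := IsUnit.of_mul_eq_one_right t (mul_left_cancel₀ hq0 (by
    linear_combination -r * ht - hr))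
  -- norms
  obtain ⟨a', b', hab⟩ := exists_coord hK hd0 hs (α : K)
  obtain ⟨hN, a, ha⟩ := norm_trace_int hK hd0 hs hab
  have hnq : Algebra.norm ℤ (q : 𝓞 K) = (q : ℤ) ^ 2 := by
    rw [show (q : 𝓞 K) = algebraMap ℤ (𝓞 K) q by simp, Algebra.norm_algebraMap,
      RingOfIntegers.rank, hK]
  have hn2 : (Algebra.norm ℤ α) ^ 2 = (q : ℤ) ^ 2 := by
    rw [← hnq, hr, map_mul, map_mul]
    rcases Int.isUnit_iff.mp (hu.map (Algebra.norm ℤ)) with h | h
    · rw [h]; ring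
    · exfalso
      have h' := congrArg (Algebra.norm ℤ) hr
      rw [hnq, map_mul, map_mul, h] at h'
      nlinarith [mul_self_nonneg (Algebra.norm ℤ α), hq.pos]
  have hpos : (0 : ℚ) ≤ (Algebra.norm ℤ α : ℚ) := by
    rw [← hN]
    have : (d : ℚ) < 0 := Int.cast_lt_zero.mpr hd0
    nlinarith [sq_nonneg a', sq_nonneg b']
  have hnorm : Algebra.norm ℤ α = q := by
    rcases sq_eq_sq_iff_eq_or_eq_neg.mp hn2 with h | h
    · exact h
    · rw [h] at hpos; push_cast at hpos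
      have : (0 : ℚ) < q := Nat.cast_pos.mpr hq.pos
      linarith
  rw [hnorm] at hN
  push_cast at hN
  have hv : (d : ℚ) * (2 * b') ^ 2 = ((a ^ 2 - 4 * q : ℤ) : ℚ) := by
    push_cast
    rw [← ha, ← hN]
    ring
  generalize hM : a ^ 2 - 4 * (q : ℤ) = M at hv
  obtain ⟨c, hc⟩ : ∃ c : ℤ, (d : ℚ) * (2 * b') = c := by
    have h2 : ((d : ℚ) * (2 * b')) ^ 2 = ((d * M : ℤ) : ℚ) := by
      push_cast
      rw [← hv]; ring
    refine ⟨((d : ℚ) * (2 * b')).num, (Rat.coe_int_num_of_den_eq_one ?_).symm⟩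
    have h3 := congrArg Rat.den h2
    rw [Rat.den_pow, Rat.den_intCast] at h3
    exact (pow_eq_one_iff_left two_ne_zero).mp h3
  obtain ⟨b, rfl⟩ : d ∣ c := (hd.dvd_pow_iff_dvd two_ne_zero).mp ⟨M, by
    have h4 : ((c ^ 2 : ℤ) : ℚ) = ((d * M : ℤ) : ℚ) := by
      push_cast; rw [← hc, ← hv]; ring
    exact_mod_cast h4⟩
  push_cast at hc
  have hb : 2 * b' = b := mul_left_cancel₀ (Int.cast_ne_zero.2 hd0.ne) hc
  have he : a ^ 2 - d * b ^ 2 = 4 * q := by
    have : ((a ^ 2 - d * b ^ 2 : ℤ) : ℚ) = ((4 * q : ℤ) : ℚ) := by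
      push_cast; rw [← ha, ← hb, ← hN]; ring
    exact_mod_cast this
  refine ⟨a, b, fun h0 => ?_, he⟩
  subst h0
  have h4 : a.natAbs ^ 2 = 4 * q := by
    have := congrArg Int.natAbs he
    simpa [Int.natAbs_pow, Int.natAbs_mul] using this
  obtain ⟨k, hk⟩ : 2 ∣ a.natAbs := Nat.prime_two.dvd_of_dvd_pow (n := 2) ⟨2 * q, by omega⟩
  rw [hk] at h4
  exact hq.prime.not_isSquare ⟨k, by nlinarith⟩

/-- **Genus theory**: class number one forces one ramified prime. -/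
theorem shape_of_classNumber_one (hK : finrank ℚ K = 2) (hd : Squarefree d) (hd0 : d < 0)
    (hs : s ^ 2 = (d : K)) (h1 : classNumber K = 1) :
    d = -1 ∨ d = -2 ∨ ∃ p : ℕ, p.Prime ∧ p % 4 = 3 ∧ d = -(p : ℤ) := by
  set D := d.natAbs with hD
  have hdD : d = -(D : ℤ) := by omega
  have hsq : Squarefree D := Int.squarefree_natAbs.mpr hd
  rcases eq_or_ne D 1 with h | h1'
  · exact Or.inl (by omega)
  rcases eq_or_ne D 2 with h | h2'
  · exact Or.inr (Or.inl (by omega))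
  have hsint : IsIntegral ℤ s := ⟨Polynomial.X ^ 2 - Polynomial.C d, by monicity!,
    by rw [Polynomial.eval₂_sub, Polynomial.eval₂_X_pow, Polynomial.eval₂_C, hs]; simp⟩
  set S : 𝓞 K := ⟨s, hsint⟩ with hS
  have hSS : S * S = (d : 𝓞 K) := RingOfIntegers.coe_injective (by
    rw [map_mul, map_intCast]; show s * s = _; rw [← pow_two, hs])
  by_cases hp : D.Prime
  · refine Or.inr (Or.inr ⟨D, hp, ?_, hdD⟩)
    by_contra h4
    have hodd := hp.eq_two_or_odd.resolve_left h2'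
    obtain ⟨k, hk⟩ : ∃ k, D = 4 * k + 1 := ⟨D / 4, by omega⟩
    obtain ⟨a, b, hb, he⟩ := exists_repr hK hd hd0 hs h1 Nat.prime_two
      (x := 1 + S) (y := 1 - S) (N := 1 - d)
      ⟨-(2 * k : 𝓞 K) + S, by
        have : (d : 𝓞 K) = -(4 * k + 1) := by rw [hdD, hk]; push_cast; ring
        push_cast
        linear_combination hSS + this⟩
      (by push_cast; linear_combination -hSS) ⟨1, by push_cast; ring⟩
      ⟨by omega, by omega⟩
    have : 0 < b ^ 2 := by positivity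
    rcases le_or_gt k 1 with hk1 | hk1
    · interval_cases k
      · omega
      · rw [hdD, hk] at he
        push_cast at he
        have hb1 : b ^ 2 = 1 := by nlinarith [sq_nonneg a]
        have ha : a ^ 2 = 3 := by rw [hb1] at he; linarith
        have : a ≤ 1 ∧ -1 ≤ a := ⟨by nlinarith, by nlinarith⟩
        obtain ⟨h5, h6⟩ := this
        interval_cases a <;> norm_num at ha
    · rw [hdD, hk] at he
      push_cast at he
      nlinarith [sq_nonneg a]
  exfalso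
  have hD0 : D ≠ 0 := by omega
  have hqp : (D.minFac).Prime := Nat.minFac_prime h1'
  set q := D.minFac with hq
  obtain ⟨m, hm⟩ := Nat.minFac_dvd D
  rw [← hq] at hm
  have hm1 : m ≠ 1 := fun e => hp (by rw [hm, e, mul_one]; exact hqp)
  have hqm : ¬ q ∣ m := fun ⟨c, hc⟩ => hqp.ne_one (Nat.isUnit_iff.mp
    (hsq q ⟨c, by rw [hm, hc, mul_assoc]⟩))
  have hm0 : m ≠ 0 := fun e => hD0 (by rw [hm, e, mul_zero])
  have hlt : q < m := by
    rcases lt_or_ge q m with h | h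
    · exact h
    · have := Nat.minFac_le_of_dvd (show 2 ≤ m by omega) (hm ▸ dvd_mul_left m q : m ∣ D)
      rw [← hq] at this
      exact absurd (le_antisymm this h ▸ dvd_refl q) hqm
  obtain ⟨a, b, hb, he⟩ := exists_repr hK hd hd0 hs h1 hqp
    (x := S) (y := -S) (N := -d) ⟨-(m : 𝓞 K), by
      rw [hSS, hdD, hm]; push_cast; ring⟩
    (by rw [mul_neg, hSS]; push_cast; rfl) (by rw [add_neg_cancel]; exact dvd_zero _)
    ⟨⟨m, by rw [hdD, hm]; push_cast; ring⟩, fun ⟨c, hc⟩ => by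
      rw [hdD, neg_neg, hm] at hc
      refine hqm (Int.natCast_dvd_natCast.mp ⟨c, mul_left_cancel₀
        (Int.natCast_ne_zero.mpr hqp.ne_zero) ?_⟩)
      push_cast at hc
      linear_combination hc⟩
  rw [hdD, hm] at he
  push_cast at he
  have hb2 : 1 ≤ b ^ 2 := by
    have : 0 < b ^ 2 := by positivity
    omega
  have hm4 : m ≤ 4 := by
    by_contra h
    have h5 : (5 : ℤ) ≤ m := by exact_mod_cast (Nat.lt_of_not_le h)
    have hq0 : (0 : ℤ) < q := by exact_mod_cast hqp.pos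
    nlinarith [sq_nonneg a, mul_le_mul_of_nonneg_left h5 hq0.le,
      mul_le_mul_of_nonneg_left hb2 (mul_nonneg hq0.le (by omega : (0 : ℤ) ≤ m))]
  have hq2 := hqp.two_le
  have hq3 : q ≤ 3 := by omega
  rcases (show q = 2 ∧ m = 3 ∨ q = 2 ∧ m = 4 ∨ q = 3 ∧ m = 4 by omega) with
    ⟨rfl', hm'⟩ | ⟨h', hm'⟩ | ⟨h', hm'⟩
  · rw [rfl', hm'] at he
    push_cast at he
    have hb1 : b ^ 2 = 1 := by nlinarith [sq_nonneg a]
    have ha : a ^ 2 = 2 := by rw [hb1] at he; linarith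
    have : a ≤ 1 ∧ -1 ≤ a := ⟨by nlinarith, by nlinarith⟩
    obtain ⟨h5, h6⟩ := this
    interval_cases a <;> norm_num at ha
  · exact hqm (by rw [h', hm']; norm_num)
  · have h2 : D.minFac ≤ 2 := Nat.minFac_le_of_dvd le_rfl ⟨6, by rw [hm, h', hm']⟩
    rw [← hq, h'] at h2
    omega

end FA.ClassNumberOne

end
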