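import Fermat.Agent.ClassNumberOne.Ode
import Fermat.Agent.Mazur.Wp.Curve

/-!
# Lattices with given invariants
-/

set_option autoImplicit false

noncomputable section

namespace FA.ClassNumberOne

open FA.Mazur.Wp FA.ModField UpperHalfPlane
open scoped UpperHalfPlane

/-- The lattice multiplied by `u`. -/
def scaled (L : PeriodPair) {u : ℂ} (hu : u ≠ 0) : PeriodPair where
  ω₁ := L.ω₁ * u
  ω₂ := L.ω₂ * u
  indep := by
    rw [LinearIndependent.pair_iff]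
    intro s t h
    refine LinearIndependent.pair_iff.1 L.indep s t (mul_right_cancel₀ hu ?_)
    rw [zero_mul, ← h]
    simp only [Complex.real_smul]
    ring

theorem mem_scaled {L : PeriodPair} {u : ℂ} (hu : u ≠ 0) {x : ℂ} :
    x ∈ (scaled L hu).lattice ↔ x * u⁻¹ ∈ L.lattice := by
  simp only [PeriodPair.mem_lattice, scaled]
  refine exists₂_congr fun m n => ?_
  rw [eq_mul_inv_iff_mul_eq₀ hu, add_mul, mul_assoc, mul_assoc]

theorem G_scaled (L : PeriodPair) {u : ℂ} (hu : u ≠ 0) (n : ℕ) :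
    (scaled L hu).G n = u⁻¹ ^ n * L.G n := by
  let e : (scaled L hu).lattice ≃ L.lattice :=
    (Equiv.mulRight₀ u⁻¹ (inv_ne_zero hu)).subtypeEquiv fun x => mem_scaled hu
  rw [PeriodPair.G, PeriodPair.G, ← e.symm.tsum_eq, ← tsum_mul_left]
  refine tsum_congr fun l => ?_
  show (((l : ℂ) * u⁻¹⁻¹) ^ n)⁻¹ = u⁻¹ ^ n * ((l : ℂ) ^ n)⁻¹
  rw [inv_inv, mul_pow, mul_inv, inv_pow, mul_comm]

theorem g₂_scaled (L : PeriodPair) {u : ℂ} (hu : u ≠ 0) :
    (scaled L hu).g₂ = u⁻¹ ^ 4 * L.g₂ := by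
  rw [PeriodPair.g₂, PeriodPair.g₂, G_scaled]; ring

theorem g₃_scaled (L : PeriodPair) {u : ℂ} (hu : u ≠ 0) :
    (scaled L hu).g₃ = u⁻¹ ^ 6 * L.g₃ := by
  rw [PeriodPair.g₃, PeriodPair.g₃, G_scaled]; ring

theorem g_congr {L L' : PeriodPair} (h : L.lattice = L'.lattice) :
    L.g₂ = L'.g₂ ∧ L.g₃ = L'.g₃ := by
  have e : ∀ n, L.G n = L'.G n := fun n => by
    rw [PeriodPair.G, PeriodPair.G,
      ← ((Equiv.refl ℂ).subtypeEquiv fun x =>
        (h ▸ Iff.rfl : x ∈ L.lattice ↔ x ∈ L'.lattice)).tsum_eq]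
    rfl
  exact ⟨by rw [PeriodPair.g₂, PeriodPair.g₂, e], by rw [PeriodPair.g₃, PeriodPair.g₃, e]⟩

/-- `g₂³ / (g₂³ - 27 g₃²)`, the invariant over `1728`. -/
def jLat (L : PeriodPair) : ℂ := L.g₂ ^ 3 / (L.g₂ ^ 3 - 27 * L.g₃ ^ 2)

/-- Two pairs with nonzero discriminant and the same invariant differ by a change of scale. -/
theorem exists_scale {a b a' b' : ℂ} (h : a ^ 3 - 27 * b ^ 2 ≠ 0) (h' : a' ^ 3 - 27 * b' ^ 2 ≠ 0)
    (hj : a ^ 3 / (a ^ 3 - 27 * b ^ 2) = a' ^ 3 / (a' ^ 3 - 27 * b' ^ 2)) :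
    ∃ u : ℂ, u ≠ 0 ∧ a = u ^ 4 * a' ∧ b = u ^ 6 * b' := by
  rw [div_eq_div_iff h h'] at hj
  have hx : a ^ 3 * b' ^ 2 = a' ^ 3 * b ^ 2 := by linear_combination -(1 / 27 : ℂ) * hj
  rcases eq_or_ne a' 0 with rfl | ha'
  · have hb' : b' ≠ 0 := fun e => h' (by simp [e])
    have ha : a = 0 := by
      simpa [hb'] using hx
    have hb : b ≠ 0 := fun e => h (by simp [e, ha])
    obtain ⟨u, hu⟩ := IsAlgClosed.exists_pow_nat_eq (b / b') (show 0 < 6 by norm_num)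
    refine ⟨u, fun e => div_ne_zero hb hb' (by simpa [e] using hu.symm), by simp [ha], ?_⟩
    rw [hu, div_mul_cancel₀ _ hb']
  rcases eq_or_ne b' 0 with rfl | hb'
  · have hb : b = 0 := by simpa [ha'] using hx.symm
    have ha : a ≠ 0 := fun e => h (by simp [e, hb])
    obtain ⟨u, hu⟩ := IsAlgClosed.exists_pow_nat_eq (a / a') (show 0 < 4 by norm_num)
    refine ⟨u, fun e => div_ne_zero ha ha' (by simpa [e] using hu.symm), ?_, by simp [hb]⟩
    rw [hu, div_mul_cancel₀ _ ha']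
  have ha : a ≠ 0 := fun e => by
    have hb : b = 0 := by simpa [e, ha'] using hx.symm
    exact h (by simp [e, hb])
  have hb : b ≠ 0 := fun e => by
    simp [e, ha, hb'] at hx
  obtain ⟨u, hu⟩ := IsAlgClosed.exists_pow_nat_eq (b * a' / (b' * a)) two_pos
  refine ⟨u, fun e => div_ne_zero (mul_ne_zero hb ha') (mul_ne_zero hb' ha)
    (by simpa [e] using hu.symm), ?_, ?_⟩
  · rw [show u ^ 4 = (u ^ 2) ^ 2 by ring, hu]
    field_simp
    linear_combination hx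
  · rw [show u ^ 6 = (u ^ 2) ^ 3 by ring, hu]
    field_simp
    linear_combination hx

/-- **Every pair with nonzero discriminant is the pair of invariants of a lattice.** -/
theorem exists_lattice {a b : ℂ} (h : a ^ 3 - 27 * b ^ 2 ≠ 0) :
    ∃ L : PeriodPair, L.g₂ = a ∧ L.g₃ = b := by
  obtain ⟨τ, hτ⟩ := exists_jfun_eq (1728 * (a ^ 3 / (a ^ 3 - 27 * b ^ 2)))
  have hj : a ^ 3 / (a ^ 3 - 27 * b ^ 2) =
      (latPair τ).g₂ ^ 3 / ((latPair τ).g₂ ^ 3 - 27 * (latPair τ).g₃ ^ 2) := by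
    rw [discr_latPair, g₂_latPair]
    rw [jfun] at hτ
    have h0 := ModularForm.discriminant_ne_zero τ
    have h1 := tpi_ne_zero
    field_simp at hτ ⊢
    linear_combination -hτ
  obtain ⟨u, hu, ha, hb⟩ := exists_scale h (discr_latPair_ne_zero τ) hj
  refine ⟨scaled (latPair τ) (inv_ne_zero hu), ?_, ?_⟩
  · rw [g₂_scaled, inv_inv, ha]
  · rw [g₃_scaled, inv_inv, hb]

theorem isElliptic_latCurve {L : PeriodPair} (h : L.g₂ ^ 3 - 27 * L.g₃ ^ 2 ≠ 0) :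
    (latCurve L).IsElliptic := ⟨by rw [latCurve_Δ]; exact h.isUnit⟩

end FA.ClassNumberOne

end
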