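import Fermat.Agent.ClassNumberOne.Lattice

/-!
# Multiplication by a stabiliser of the lattice

If `ω L ⊆ L` and `ω² - t ω + n = 0` with `n ≠ 0`, then `℘(ω z)` is `ω⁻²` times the sum of the
translates of `℘` by the finite kernel `ω⁻¹ L / L`, less a constant. So multiplication by `ω` on
the points is given by the coordinates of translates.
-/

set_option autoImplicit false

noncomputable section

namespace FA.ClassNumberOne

open Filter Set FA.Mazur.Wp WeierstrassCurve
open scoped Topology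

/-- The abscissa, `0` at the origin. -/
def xP {F : Type*} [Field F] {W : WeierstrassCurve F} : W.toAffine.Point → F
  | .zero => 0
  | .some x _ _ => x

/-- The ordinate, `0` at the origin. -/
def yP {F : Type*} [Field F] {W : WeierstrassCurve F} : W.toAffine.Point → F
  | .zero => 0
  | .some _ y _ => y

/-- Points other than the origin are given by their coordinates. -/
theorem eq_of_coord {F : Type*} [Field F] {W : WeierstrassCurve F} {P Q : W.toAffine.Point}
    (hP : P ≠ 0) (hQ : Q ≠ 0) (hx : xP P = xP Q) (hy : yP P = yP Q) : P = Q := by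
  rcases P with _ | ⟨x, y, h⟩
  · exact absurd rfl hP
  rcases Q with _ | ⟨x', y', h'⟩
  · exact absurd rfl hQ
  simp only [xP, yP] at hx hy
  subst hx hy
  rfl

variable (L : PeriodPair) [(latCurve L).IsElliptic]

local notation "wp" => PeriodPair.weierstrassP L
local notation "wq" => PeriodPair.derivWeierstrassP L

theorem xP_unif (z : ℂ) : xP (unif L z) = wp z := by
  by_cases hz : z ∈ L.lattice
  · rw [unif_of_mem L hz, show wp z = 0 from L.weierstrassP_coe ⟨z, hz⟩]; rfl
  · rw [unif_of_notMem L hz]; rfl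

theorem yP_unif (z : ℂ) : yP (unif L z) = wq z / 2 := by
  by_cases hz : z ∈ L.lattice
  · rw [unif_of_mem L hz, show wq z = 0 from L.derivWeierstrassP_coe ⟨z, hz⟩, zero_div]; rfl
  · rw [unif_of_notMem L hz]; rfl

variable {ω : ℂ}

/-- Multiplication by a stabiliser of the lattice. -/
def mulPt (hstab : ∀ l ∈ L.lattice, ω * l ∈ L.lattice) :
    (latCurve L).toAffine.Point →+ (latCurve L).toAffine.Point :=
  AddMonoidHom.mk' (fun Q => unif L (ω * Function.surjInv (unif_surjective L) Q)) fun P Q => by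
    rw [← unif_add, ← mul_add, unif_eq_unif_iff, ← mul_sub]
    refine hstab _ ((unif_eq_unif_iff L).1 ?_)
    rw [Function.surjInv_eq (unif_surjective L), unif_add,
      Function.surjInv_eq (unif_surjective L), Function.surjInv_eq (unif_surjective L)]

theorem mulPt_unif (hstab : ∀ l ∈ L.lattice, ω * l ∈ L.lattice) (z : ℂ) :
    mulPt L hstab (unif L z) = unif L (ω * z) := by
  show unif L (ω * Function.surjInv (unif_surjective L) (unif L z)) = _
  rw [unif_eq_unif_iff, ← mul_sub]
  exact hstab _ ((unif_eq_unif_iff L).1 (Function.surjInv_eq (unif_surjective L) _))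

/-- Representatives of the nonzero elements of `ω⁻¹ L / L`. -/
structure IsKernel (ω : ℂ) (S : Finset ℂ) : Prop where
  mem : ∀ u ∈ S, u ∉ L.lattice ∧ ω * u ∈ L.lattice
  cover : ∀ z, z ∉ L.lattice → ω * z ∈ L.lattice → ∃ u ∈ S, z - u ∈ L.lattice
  inj : ∀ u ∈ S, ∀ v ∈ S, u - v ∈ L.lattice → u = v

theorem exists_kernel (hstab : ∀ l ∈ L.lattice, ω * l ∈ L.lattice) {t n : ℤ} (hn : n ≠ 0)
    (hω : ω ^ 2 - t * ω + n = 0) : ∃ S, IsKernel L ω S := by
  classical
  have hfin : {Q | Q ≠ 0 ∧ mulPt L hstab Q = 0}.Finite := by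
    refine (((Finset.Ico (0 : ℤ) |n|) ×ˢ (Finset.Ico (0 : ℤ) |n|)).image fun x =>
      unif L (((x.1 : ℂ) * L.ω₁ + x.2 * L.ω₂) / n)).finite_toSet.subset ?_
    rintro Q ⟨-, hQ⟩
    obtain ⟨z, rfl⟩ := unif_surjective L Q
    rw [mulPt_unif, unif_eq_zero_iff] at hQ
    have hnz : (n : ℂ) * z ∈ L.lattice := by
      rw [show (n : ℂ) * z = t • (ω * z) - ω * (ω * z) by
        rw [zsmul_eq_mul]; linear_combination z * hω]
      exact sub_mem (zsmul_mem hQ t) (hstab _ hQ)
    obtain ⟨a, b, hab⟩ := PeriodPair.mem_lattice.1 hnz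
    refine Finset.mem_coe.2 (Finset.mem_image.2 ⟨(a % n, b % n), ?_, ?_⟩)
    · simp [Int.emod_nonneg _ hn, Int.emod_lt_abs _ hn]
    rw [unif_eq_unif_iff, PeriodPair.mem_lattice]
    refine ⟨-(a / n), -(b / n), ?_⟩
    have hn' : (n : ℂ) ≠ 0 := Int.cast_ne_zero.2 hn
    have ea : ((a % n : ℤ) : ℂ) + n * (a / n : ℤ) = a := by exact_mod_cast Int.emod_add_mul_ediv a n
    have eb : ((b % n : ℤ) : ℂ) + n * (b / n : ℤ) = b := by exact_mod_cast Int.emod_add_mul_ediv b n
    field_simp
    push_cast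
    linear_combination -hab - L.ω₁ * ea - L.ω₂ * eb
  refine ⟨hfin.toFinset.image (Function.surjInv (unif_surjective L)), ?_, ?_, ?_⟩
  · intro u hu
    obtain ⟨Q, hQ, rfl⟩ := Finset.mem_image.1 hu
    obtain ⟨h0, hm⟩ := hfin.mem_toFinset.1 hQ
    exact ⟨fun h => h0 (by rw [← Function.surjInv_eq (unif_surjective L) Q, unif_of_mem L h]),
      (unif_eq_zero_iff L).1 hm⟩
  · intro z hz hωz
    refine ⟨_, Finset.mem_image.2 ⟨unif L z, hfin.mem_toFinset.2
      ⟨fun h => hz ((unif_eq_zero_iff L).1 h), by rwa [mulPt_unif, unif_eq_zero_iff]⟩, rfl⟩, ?_⟩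
    exact (unif_eq_unif_iff L).1 (Function.surjInv_eq (unif_surjective L) _).symm
  · intro u hu v hv h
    obtain ⟨P, -, rfl⟩ := Finset.mem_image.1 hu
    obtain ⟨Q, -, rfl⟩ := Finset.mem_image.1 hv
    rw [← unif_eq_unif_iff, Function.surjInv_eq (unif_surjective L),
      Function.surjInv_eq (unif_surjective L)] at h
    rw [h]

variable {L}

omit [(latCurve L).IsElliptic] in
/-- Off the kernel the translates avoid the lattice. -/
theorem add_notMem (hstab : ∀ l ∈ L.lattice, ω * l ∈ L.lattice) {z u : ℂ}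
    (hz : ω * z ∉ L.lattice) (hu : ω * u ∈ L.lattice) : z ∉ L.lattice ∧ z + u ∉ L.lattice :=
  ⟨fun h => hz (hstab _ h), fun h => hz (by
    simpa [mul_add] using sub_mem (hstab _ h) hu)⟩

omit [(latCurve L).IsElliptic] in
/-- **The formula of multiplication.** -/
theorem wp_mul (hstab : ∀ l ∈ L.lattice, ω * l ∈ L.lattice) (hω0 : ω ≠ 0) {S : Finset ℂ}
    (hS : IsKernel L ω S) {z : ℂ} (hz : ω * z ∉ L.lattice) :
    ω ^ 2 * wp (ω * z) = wp z + ∑ u ∈ S, (wp (z + u) - wp u) := by
  classical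
  let D : ℂ → ℂ := fun y => ω ^ 2 * wp (ω * y) - wp y - ∑ u ∈ S, (wp (y + u) - wp u)
  have han : ∀ y, y ∉ L.lattice → AnalyticAt ℂ wp y := fun y => analyticAt_wp L
  have hmulA : ∀ x, ω * x ∉ L.lattice → AnalyticAt ℂ (fun y => wp (ω * y)) x := fun x hx =>
    (han _ hx).comp_of_eq (analyticAt_const.mul analyticAt_id) rfl
  have htrans : ∀ (x u : ℂ), x + u ∉ L.lattice → AnalyticAt ℂ (fun y => wp (y + u) - wp u) x :=
    fun x u h =>
      ((han _ h).comp_of_eq (analyticAt_id.add analyticAt_const) rfl).sub analyticAt_const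
  have hexc : ∀ x : ℂ, AnalyticAt ℂ (fun y => L.weierstrassPExcept 0 (y - x)) x ∧
      AnalyticAt ℂ (fun y => L.weierstrassPExcept 0 (ω * (y - x))) x := fun x =>
    ⟨(analyticAt_except_zero L).1.comp_of_eq (analyticAt_id.sub analyticAt_const) (sub_self x),
      (analyticAt_except_zero L).1.comp_of_eq
        (analyticAt_const.mul (analyticAt_id.sub analyticAt_const)) (by simp)⟩
  -- at a point of `ω⁻¹ L` the pole of `℘(ω y)` is that of one translate
  have hpole : ∀ x, ω * x ∈ L.lattice → ∀ᶠ y in 𝓝[≠] x, ω ^ 2 * wp (ω * y) =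
      ω ^ 2 * L.weierstrassPExcept 0 (ω * (y - x)) + 1 / (y - x) ^ 2 := fun x hx => by
    filter_upwards [self_mem_nhdsWithin] with y hy
    have hyx : y - x ≠ 0 := sub_ne_zero.2 hy
    rw [show ω * y = ω * (y - x) + ω * x by ring, (wp_sub_coe L hx).1, wp_eq_except L (ω * (y - x))]
    field_simp
  have hgerm : ∀ x, ∃ G : ℂ → ℂ, AnalyticAt ℂ G x ∧ (∀ᶠ y in 𝓝[≠] x, D y = G y) ∧
      (x = 0 → G x = 0) := fun x => by
    by_cases hx : ω * x ∈ L.lattice
    · by_cases hxL : x ∈ L.lattice
      · have hu : ∀ u ∈ S, x + u ∉ L.lattice := fun u hu h =>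
          (hS.mem u hu).1 (by simpa using sub_mem h hxL)
        refine ⟨fun y => ω ^ 2 * L.weierstrassPExcept 0 (ω * (y - x)) -
          L.weierstrassPExcept 0 (y - x) - ∑ u ∈ S, (wp (y + u) - wp u), ?_, ?_, ?_⟩
        · exact ((analyticAt_const.mul (hexc x).2).sub (hexc x).1).sub
            (Finset.analyticAt_fun_sum _ fun u h => htrans x u (hu u h))
        · filter_upwards [hpole x hx, wp_near L hxL] with y h1 h2
          simp only [D]
          rw [h1, h2.2]
          ring
        · rintro rfl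
          simp [except_zero L]
      · obtain ⟨u₀, hu₀, hmem⟩ := hS.cover (-x) (fun h => hxL (by simpa using neg_mem h))
          (by simpa using neg_mem hx)
        have hmem' : x + u₀ ∈ L.lattice := by simpa [add_comm] using neg_mem hmem
        have hu : ∀ u ∈ S.erase u₀, x + u ∉ L.lattice := fun u hu h => by
          rw [Finset.mem_erase] at hu
          exact hu.1 (hS.inj u hu.2 u₀ hu₀ (by simpa using sub_mem h hmem'))
        refine ⟨fun y => ω ^ 2 * L.weierstrassPExcept 0 (ω * (y - x)) - wp y -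
          (L.weierstrassPExcept 0 (y - x) - wp u₀) -
            ∑ u ∈ S.erase u₀, (wp (y + u) - wp u), ?_, ?_, ?_⟩
        · exact (((analyticAt_const.mul (hexc x).2).sub (han x hxL)).sub
            ((hexc x).1.sub analyticAt_const)).sub
            (Finset.analyticAt_fun_sum _ fun u h => htrans x u (hu u h))
        · filter_upwards [hpole x hx] with y h1
          simp only [D]
          rw [← Finset.add_sum_erase S _ hu₀, h1,
            show y + u₀ = y - x + (x + u₀) by ring, (wp_sub_coe L hmem').1,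
            wp_eq_except L (y - x)]
          ring
        · rintro rfl
          exact absurd L.lattice.zero_mem hxL
    · exact ⟨D, ((analyticAt_const.mul (hmulA x hx)).sub
        (han x fun h => hx (hstab _ h))).sub (Finset.analyticAt_fun_sum _ fun u h =>
          htrans x u (add_notMem hstab hx (hS.mem u h).2).2), Eventually.of_forall fun _ => rfl,
        by rintro rfl; exact absurd (by simp) hx⟩
  obtain ⟨C, hC⟩ := exists_const_of_germs L (D := D)
    (fun x => (hgerm x).imp fun G h => ⟨h.1, h.2.1⟩) fun y l hl => by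
      simp only [D, mul_add, (wp_sub_coe L (hstab l hl)).1, (wp_sub_coe L hl).1]
      congr 1
      refine Finset.sum_congr rfl fun u _ => ?_
      rw [add_right_comm, (wp_sub_coe L hl).1]
  obtain ⟨G, hG, hev, hG0⟩ := hgerm 0
  have h0 := hC 0 G hG.continuousAt hev
  rw [hG0 rfl] at h0
  have h1 := hC z D (((analyticAt_const.mul (hmulA z hz)).sub
    (han z fun h => hz (hstab _ h))).sub (Finset.analyticAt_fun_sum _ fun u h =>
      htrans z u (add_notMem hstab hz (hS.mem u h).2).2)).continuousAt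
    (Eventually.of_forall fun _ => rfl)
  simp only [D, ← h0] at h1
  linear_combination h1

omit [(latCurve L).IsElliptic] in
/-- Its derivative. -/
theorem wq_mul (hstab : ∀ l ∈ L.lattice, ω * l ∈ L.lattice) (hω0 : ω ≠ 0) {S : Finset ℂ}
    (hS : IsKernel L ω S) {z : ℂ} (hz : ω * z ∉ L.lattice) :
    ω ^ 3 * wq (ω * z) = wq z + ∑ u ∈ S, wq (z + u) := by
  have h1 : HasDerivAt (fun y => ω ^ 2 * wp (ω * y)) (ω ^ 2 * (wq (ω * z) * (ω * 1))) z :=
    ((hasDerivAt_wp L hz).comp z ((hasDerivAt_id z).const_mul ω)).const_mul _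
  have h2 : HasDerivAt (fun y => wp y + ∑ u ∈ S, (wp (y + u) - wp u))
      (wq z + ∑ u ∈ S, wq (z + u)) z :=
    (hasDerivAt_wp L fun h => hz (hstab _ h)).add (HasDerivAt.fun_sum fun u hu =>
      ((hasDerivAt_wp L (add_notMem hstab hz (hS.mem u hu).2).2).comp_add_const z u).sub_const _)
  have hev : (fun y => ω ^ 2 * wp (ω * y)) =ᶠ[𝓝 z]
      fun y => wp y + ∑ u ∈ S, (wp (y + u) - wp u) := by
    filter_upwards [((continuous_const_mul ω).continuousAt.preimage_mem_nhds
      ((isOpen_latticeCompl L).mem_nhds hz))] with y hy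
    exact wp_mul hstab hω0 hS hy
  rw [← (h1.congr_of_eventuallyEq hev.symm).unique h2]
  ring

/-- **Multiplication in coordinates.** -/
theorem coord_mulPt (hstab : ∀ l ∈ L.lattice, ω * l ∈ L.lattice) (hω0 : ω ≠ 0) {S : Finset ℂ}
    (hS : IsKernel L ω S) {Q : (latCurve L).toAffine.Point} (hQ : mulPt L hstab Q ≠ 0) :
    ω ^ 2 * xP (mulPt L hstab Q) =
        xP Q + ∑ u ∈ S, (xP (Q + unif L u) - xP (unif L u)) ∧
      ω ^ 3 * yP (mulPt L hstab Q) = yP Q + ∑ u ∈ S, yP (Q + unif L u) := by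
  obtain ⟨z, rfl⟩ := unif_surjective L Q
  rw [mulPt_unif] at hQ ⊢
  have hz : ω * z ∉ L.lattice := fun h => hQ (unif_of_mem L h)
  simp only [← unif_add, xP_unif, yP_unif]
  refine ⟨wp_mul hstab hω0 hS hz, ?_⟩
  rw [← mul_div_assoc, wq_mul hstab hω0 hS hz, ← Finset.sum_div, add_div]

end FA.ClassNumberOne

end
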