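import Fermat.Agent.ClassNumberOne.Lattice
import Fermat.Agent.ExceptionalIsCM.SmallClassOne

/-!
# Lattices stable under the integers of `ℚ(√-p)`

For `p ≡ 3 (mod 4)` with principal ring of integers `ℤ[ω]`, `ω = (1 + √-p) / 2`, every lattice
stable under `ω` is a multiple of `ℤ ω + ℤ`.
-/

set_option autoImplicit false

noncomputable section

namespace FA.ClassNumberOne

open NumberField Module FA.Mazur.Wp FA.ExceptionalIsCM
open scoped UpperHalfPlane

/-- `(1 + √-p) / 2` in the upper half plane. -/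
def omegaPt (p : ℕ) [NeZero p] : ℍ :=
  UpperHalfPlane.mk ⟨1 / 2, Real.sqrt p / 2⟩
    (div_pos (Real.sqrt_pos.2 (Nat.cast_pos.2 (Nat.pos_of_ne_zero (NeZero.ne p)))) two_pos)

variable (p : ℕ) [NeZero p]

/-- The square root `2 ω - 1`. -/
def rootNeg : ℂ := 2 * (omegaPt p : ℂ) - 1

theorem rootNeg_sq : rootNeg p ^ 2 = -(p : ℂ) := by
  have h := Real.mul_self_sqrt (Nat.cast_nonneg (α := ℝ) p)
  apply Complex.ext
  · simp [rootNeg, omegaPt, pow_two]
    linarith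
  · simp [rootNeg, omegaPt, pow_two]

theorem rootNeg_ne_zero : rootNeg p ≠ 0 := fun h => by
  have h2 := rootNeg_sq p
  rw [h, zero_pow two_ne_zero, zero_eq_neg, Nat.cast_eq_zero] at h2
  exact NeZero.ne p h2

theorem omega_eq : (omegaPt p : ℂ) = (1 + rootNeg p) / 2 := by rw [rootNeg]; ring

theorem omega_sq (hp4 : p % 4 = 3) :
    (omegaPt p : ℂ) ^ 2 - ((1 : ℤ) : ℂ) * omegaPt p + (((p + 1) / 4 : ℕ) : ℤ) = 0 := by
  obtain ⟨k, hk⟩ : 4 ∣ p + 1 := by omega
  have hk' : (p : ℂ) + 1 = 4 * k := by exact_mod_cast hk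
  rw [hk, Nat.mul_div_cancel_left _ four_pos, omega_eq]
  push_cast
  linear_combination (1 / 4 : ℂ) * rootNeg_sq p - (1 / 4 : ℂ) * hk'

variable {p} {K : Type*} [Field K] [NumberField K] {s : K}

omit [NeZero p] in
/-- Coordinates over `ℚ`. -/
theorem exists_coord (hK : finrank ℚ K = 2) {d : ℤ} (hd : d < 0) (hs : s ^ 2 = (d : K)) (z : K) :
    ∃ u v : ℚ, z = (u : K) + (v : K) * s := by
  have hli : LinearIndependent ℚ ![1, s] := LinearIndependent.pair_iff.mpr fun a b e => by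
    by_cases hb : b = 0
    · subst hb
      rw [zero_smul, add_zero, smul_eq_zero, or_iff_left one_ne_zero] at e
      exact ⟨e, rfl⟩
    · exfalso
      have hr : algebraMap ℚ K (-a / b) = s := by
        rw [Algebra.smul_def, Algebra.smul_def, mul_one] at e
        rw [map_div₀, map_neg, div_eq_iff ((map_ne_zero _).mpr hb)]
        linear_combination -e
      have hsq : (-a / b) ^ 2 = (d : ℚ) :=
        (algebraMap ℚ K).injective (by rw [map_pow, hr, hs, map_intCast])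
      have : (d : ℚ) < 0 := Int.cast_lt_zero.mpr hd
      nlinarith [sq_nonneg (-a / b)]
  let B := basisOfLinearIndependentOfCardEqFinrank hli (by rw [Fintype.card_fin, hK])
  refine ⟨B.repr z 0, B.repr z 1, ?_⟩
  conv_lhs => rw [← B.sum_repr z]
  simp [Fin.sum_univ_two, B, Rat.smul_def]

/-- An embedding sending `√-p` to `2 ω - 1`. -/
theorem exists_embedding (hs : s ^ 2 = ((-(p : ℤ) : ℤ) : K)) :
    ∃ e : K →+* ℂ, e s = rootNeg p := by
  obtain ⟨e⟩ : Nonempty (K →+* ℂ) := inferInstance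
  have h : e s ^ 2 = rootNeg p ^ 2 := by
    rw [← map_pow, hs, map_intCast, rootNeg_sq]; push_cast; rfl
  rcases sq_eq_sq_iff_eq_or_eq_neg.1 h with h' | h'
  · exact ⟨e, h'⟩
  · refine ⟨(starRingEnd ℂ).comp e, ?_⟩
    rw [RingHom.comp_apply, h', map_neg, rootNeg]
    apply Complex.ext <;> simp [omegaPt]

/-- The integers are `ℤ + ℤ ω`. -/
theorem exists_int_coord (hp : p.Prime) (hp4 : p % 4 = 3) (hK : finrank ℚ K = 2)
    (hs : s ^ 2 = ((-(p : ℤ) : ℤ) : K)) {e : K →+* ℂ} (he : e s = rootNeg p) (r : 𝓞 K) :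
    ∃ m n : ℤ, e (r : K) = m + n * omegaPt p := by
  have hd : (-(p : ℤ)) < 0 := neg_lt_zero.mpr (by exact_mod_cast hp.pos)
  obtain ⟨u, v, huv⟩ := exists_coord hK hd hs (r : K)
  obtain ⟨hN, a, ha⟩ := norm_trace_int hK hd hs huv
  push_cast at hN
  have hv : (p : ℚ) * (2 * v) ^ 2 = ((4 * Algebra.norm ℤ r - a ^ 2 : ℤ) : ℚ) := by
    push_cast
    rw [← ha, ← hN]
    ring
  generalize 4 * Algebra.norm ℤ r - a ^ 2 = M at hv
  obtain ⟨c, hc⟩ : ∃ c : ℤ, (p : ℚ) * (2 * v) = c := by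
    have h2 : ((p : ℚ) * (2 * v)) ^ 2 = ((p * M : ℤ) : ℚ) := by
      push_cast
      rw [← hv]; ring
    refine ⟨((p : ℚ) * (2 * v)).num, (Rat.coe_int_num_of_den_eq_one ?_).symm⟩
    have h3 := congrArg Rat.den h2
    rw [Rat.den_pow, Rat.den_intCast] at h3
    exact (pow_eq_one_iff_left two_ne_zero).mp h3
  obtain ⟨b, rfl⟩ : (p : ℤ) ∣ c := (Nat.prime_iff_prime_int.mp hp).dvd_of_dvd_pow
    (n := 2) ⟨M, by
      have h4 : ((c ^ 2 : ℤ) : ℚ) = (((p : ℤ) * M : ℤ) : ℚ) := by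
        push_cast; rw [← hc, ← hv]; ring
      exact_mod_cast h4⟩
  push_cast at hc
  have hb : 2 * v = b := mul_left_cancel₀ (Nat.cast_ne_zero.2 hp.ne_zero) hc
  have hab : a ^ 2 + p * b ^ 2 = 4 * Algebra.norm ℤ r := by
    have : ((a ^ 2 + p * b ^ 2 : ℤ) : ℚ) = ((4 * Algebra.norm ℤ r : ℤ) : ℚ) := by
      push_cast; rw [← ha, ← hb, ← hN]; ring
    exact_mod_cast this
  obtain ⟨m, hm⟩ : (2 : ℤ) ∣ a - b := by
    obtain ⟨k, hk⟩ : Odd p := Nat.odd_iff.2 (by omega)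
    have h2 : Even ((a - b) * (a + b)) :=
      ⟨2 * Algebra.norm ℤ r - (k + 1) * b ^ 2, by subst hk; push_cast at hab ⊢; linarith⟩
    rcases Int.even_mul.1 h2 with ⟨x, hx⟩ | ⟨x, hx⟩
    · exact ⟨x, by linarith⟩
    · exact ⟨x - b, by linarith⟩
  refine ⟨m, b, ?_⟩
  rw [huv, map_add, map_mul, map_ratCast, map_ratCast, he, omega_eq]
  have ha' : (2 : ℂ) * (u : ℂ) = a := by exact_mod_cast ha
  have hb' : (2 : ℂ) * (v : ℂ) = b := by exact_mod_cast hb
  have hm' : (a : ℂ) - b = 2 * m := by exact_mod_cast hm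
  linear_combination (1 / 2 : ℂ) * ha' + (1 / 2 : ℂ) * hm' + (rootNeg p / 2) * hb'

/-- `ω` comes from an integer. -/
theorem exists_omega (hp4 : p % 4 = 3) (hK : finrank ℚ K = 2)
    (hs : s ^ 2 = ((-(p : ℤ) : ℤ) : K)) {e : K →+* ℂ} (he : e s = rootNeg p) :
    ∃ θ : 𝓞 K, e (θ : K) = omegaPt p := by
  have hd : (-(p : ℤ)) < 0 := by omega
  obtain ⟨θ, hθ, -⟩ := FA.ClassOneField.exists_element hK hd hs (a := 1) (b := 1)
    (l := (p + 1) / 4) one_ne_zero (by push_cast; omega)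
  refine ⟨θ, ?_⟩
  rw [hθ, map_div₀, map_add, map_mul, map_intCast, map_ofNat, he, omega_eq]
  simp

/-- **Class number one: a stable lattice is a multiple of `ℤ ω + ℤ`.** -/
theorem exists_homothety (hp : p.Prime) (hp4 : p % 4 = 3) (hK : finrank ℚ K = 2)
    (hs : s ^ 2 = ((-(p : ℤ) : ℤ) : K)) (h1 : classNumber K = 1) (L : PeriodPair)
    (hstab : ∀ l ∈ L.lattice, (omegaPt p : ℂ) * l ∈ L.lattice) :
    ∃ u : ℂ, ∃ hu : u ≠ 0, L.lattice = (scaled (latPair (omegaPt p)) hu).lattice := by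
  have := classNumber_eq_one_iff.mp h1
  obtain ⟨e, he⟩ := exists_embedding hs
  obtain ⟨θ, hθ⟩ := exists_omega hp4 hK hs he
  let f : 𝓞 K →+* ℂ := e.comp (algebraMap (𝓞 K) K)
  replace hθ : f θ = omegaPt p := hθ
  set ω : ℂ := (omegaPt p : ℂ) with hω
  obtain ⟨a, b, hab⟩ := PeriodPair.mem_lattice.1 (hstab _ L.ω₁_mem_lattice)
  have hω1 : L.ω₁ ≠ 0 := fun h => by
    have := LinearIndependent.ne_zero 0 L.indep
    simp [h] at this
  have hb : (b : ℂ) ≠ 0 := fun h => by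
    rw [h, zero_mul, add_zero] at hab
    have h' := congrArg Complex.im (mul_right_cancel₀ hω1 hab)
    rw [Complex.intCast_im] at h'
    exact (omegaPt p).im_pos.ne h'
  set c : ℂ := L.ω₁ / b with hc
  let I : Ideal (𝓞 K) :=
    { carrier := {x | f x * c ∈ L.lattice}
      add_mem' := fun {x y} hx hy => by
        simp only [Set.mem_ofPred_eq, map_add, add_mul] at hx hy ⊢
        exact add_mem hx hy
      zero_mem' := by simp
      smul_mem' := fun r x hx => by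
        simp only [Set.mem_ofPred_eq, smul_eq_mul, map_mul, mul_assoc] at hx ⊢
        obtain ⟨m, n, hr⟩ := exists_int_coord hp hp4 hK hs he r
        rw [show f r = _ from hr, add_mul, mul_assoc, ← zsmul_eq_mul, ← zsmul_eq_mul]
        exact add_mem (zsmul_mem hx m) (zsmul_mem (hstab _ hx) n) }
  have hI : ∀ x : 𝓞 K, x ∈ I ↔ f x * c ∈ L.lattice := fun _ => Iff.rfl
  obtain ⟨β, hβ⟩ := (IsPrincipalIdealRing.principal I).principal
  have hmem : ∀ l, l ∈ L.lattice ↔ ∃ x ∈ I, f x * c = l := fun l => by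
    refine ⟨fun hl => ?_, fun ⟨x, hx, h⟩ => h ▸ (hI x).1 hx⟩
    obtain ⟨m, n, rfl⟩ := PeriodPair.mem_lattice.1 hl
    have key : f (((m * b - n * a : ℤ) : 𝓞 K) + (n : 𝓞 K) * θ) * c =
        m * L.ω₁ + n * L.ω₂ := by
      rw [map_add, map_mul, hθ]
      simp only [map_intCast, hc]
      field_simp
      push_cast
      linear_combination -(n : ℂ) * hab
    exact ⟨_, (hI _).2 (key.symm ▸ hl), key⟩
  set u : ℂ := f β * c with hu
  have hu0 : u ≠ 0 := fun h => by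
    obtain ⟨x, hx, hxc⟩ := (hmem _).1 L.ω₁_mem_lattice
    rw [hβ] at hx
    obtain ⟨r, rfl⟩ := Submodule.mem_span_singleton.1 hx
    rw [smul_eq_mul, map_mul, mul_assoc, ← hu, h, mul_zero] at hxc
    exact hω1 hxc.symm
  refine ⟨u, hu0, Submodule.ext fun l => ?_⟩
  rw [mem_scaled, mem_latPair, hmem]
  constructor
  · rintro ⟨x, hx, rfl⟩
    rw [hβ] at hx
    obtain ⟨r, rfl⟩ := Submodule.mem_span_singleton.1 hx
    obtain ⟨m, n, hr⟩ := exists_int_coord hp hp4 hK hs he r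
    refine ⟨n, m, ?_⟩
    rw [eq_mul_inv_iff_mul_eq₀ hu0, smul_eq_mul, map_mul, show f r = _ from hr, hu]
    ring
  · rintro ⟨m, n, hl⟩
    refine ⟨((n : 𝓞 K) + (m : 𝓞 K) * θ) * β, ?_, ?_⟩
    · rw [hβ]
      exact Submodule.mem_span_singleton.2 ⟨_, rfl⟩
    · rw [eq_mul_inv_iff_mul_eq₀ hu0] at hl
      rw [map_mul, map_add, map_mul, map_intCast, map_intCast, hθ, mul_assoc, ← hu, ← hl]
      ring

end FA.ClassNumberOne

end
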